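import Fermat.Agent.H92.S13WP4Frey

set_option autoImplicit false

/-!
# S13 / WP4, packaged form

`kerRedTorsion A W' hW n` is the `ZMod n`-submodule `T = V ∩ E₁(A)` of
`V = Submodule.torsionBy ℤ (W'⁄Qbar).Point n` of torsion points in the kernel of reduction at `A`.
For the Frey curve and `A` over an odd prime `q` (`q = p` allowed), `(σ - 1) V ⊆ T` for every
`σ` in the inertia group of `A`.
-/

namespace Fermat.Agent.H92

open WeierstrassCurve WeierstrassCurve.Affine WeierstrassCurve.Affine.Point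

local notation "Qbar" => AlgebraicClosure ℚ

section generic

variable (A : ValuationSubring Qbar) (W' : Affine ℚ)
  (hW : Fermat.Agent.H26.IsIntegralAt A.valuation (W'⁄Qbar)) (n : ℕ)

/-- The torsion points lying in the kernel of reduction at `A`, as a `ZMod n`-submodule of the
`n`-torsion. -/
noncomputable def kerRedTorsion :
    Submodule (ZMod n) (Submodule.torsionBy ℤ (W'⁄Qbar).Point n) :=
  AddSubgroup.toZModSubmodule n
    ((Fermat.Agent.H26.kerRed hW).comap
      (Submodule.torsionBy ℤ (W'⁄Qbar).Point n).subtype.toAddMonoidHom)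

theorem mem_kerRedTorsion_iff (x : Submodule.torsionBy ℤ (W'⁄Qbar).Point n) :
    x ∈ kerRedTorsion A W' hW n ↔ InKerRed A (x : (W'⁄Qbar).Point) := by
  rw [inKerRed_iff_mem_kerRed A hW]
  rfl

theorem mem_kerRedTorsion_iff' (x : Submodule.torsionBy ℤ (W'⁄Qbar).Point n) :
    x ∈ kerRedTorsion A W' hW n ↔
      (x : (W'⁄Qbar).Point) = 0 ∨ ∃ (x₀ y₀ : Qbar) (h : (W'⁄Qbar).Nonsingular x₀ y₀),
        (x : (W'⁄Qbar).Point) = Point.some x₀ y₀ h ∧ x₀ ∉ A :=
  mem_kerRedTorsion_iff A W' hW n x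

/-- `T = V` iff every nonzero `n`-torsion point has non-integral `x`-coordinate. -/
theorem kerRedTorsion_eq_top_iff :
    kerRedTorsion A W' hW n = ⊤ ↔
      ∀ (x₀ y₀ : Qbar) (h : (W'⁄Qbar).Nonsingular x₀ y₀),
        (n : ℤ) • (Point.some x₀ y₀ h : (W'⁄Qbar).Point) = 0 → x₀ ∉ A := by
  constructor
  · intro htop x₀ y₀ h hn
    have hmem : (⟨Point.some x₀ y₀ h, (Submodule.mem_torsionBy_iff _ _).mpr hn⟩ :
        Submodule.torsionBy ℤ (W'⁄Qbar).Point n) ∈ kerRedTorsion A W' hW n := by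
      rw [htop]; exact Submodule.mem_top
    rw [mem_kerRedTorsion_iff'] at hmem
    rcases hmem with h0 | ⟨x₁, y₁, h₁, he, hx₁⟩
    · exact absurd h0 (Point.some_ne_zero h)
    · have he' : Point.some x₀ y₀ h = Point.some x₁ y₁ h₁ := he
      simp only [Point.some.injEq] at he'
      rw [he'.1]; exact hx₁
  · intro hall
    rw [eq_top_iff]
    intro x _
    rw [mem_kerRedTorsion_iff']
    obtain ⟨P, hP⟩ := x
    rcases P with _ | ⟨x₀, y₀, h⟩
    · exact Or.inl rfl
    · exact Or.inr ⟨x₀, y₀, h, rfl, hall x₀ y₀ h ((Submodule.mem_torsionBy_iff _ _).mp hP)⟩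

end generic

section frey

variable (P : FreyPackage)

/-- The Frey curve has integral coefficients at every valuation subring over an odd prime. -/
theorem frey_isIntegralAt_of_odd {q : ℕ} (hq : q.Prime) (hq2 : q ≠ 2)
    (A : ValuationSubring Qbar) (hA : A.LiesOverPrime q) :
    Fermat.Agent.H26.IsIntegralAt A.valuation (P.freyCurve⁄Qbar) := by
  have hvq : A.valuation (q : Qbar) < 1 := (ValuationSubring.mem_nonunits_iff A).mp hA
  have hv2 : A.valuation (2 : Qbar) = 1 := by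
    have := Fermat.Agent.H4.val_natCast_eq_one_of_not_dvd A hq hvq (n := 2)
      (fun h => hq2 ((Nat.prime_dvd_prime_iff_eq hq Nat.prime_two).mp h))
    simpa using this
  have hv4 : A.valuation (4 : Qbar) = 1 := by
    have : (4 : Qbar) = 2 * 2 := by norm_num
    rw [this, map_mul, hv2, mul_one]
  have hv16 : A.valuation (16 : Qbar) = 1 := by
    have : (16 : Qbar) = 4 * 4 := by norm_num
    rw [this, map_mul, hv4, mul_one]
  have hint : ∀ n : ℤ, A.valuation (n : Qbar) ≤ 1 := Fermat.Agent.H4.val_intCast_le_one A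
  refine ⟨?_, ?_, ?_, ?_, ?_⟩
  · show A.valuation (algebraMap ℚ Qbar P.freyCurve.a₁) ≤ 1
    simp [FreyPackage.freyCurve]
  · show A.valuation (algebraMap ℚ Qbar P.freyCurve.a₂) ≤ 1
    have e : algebraMap ℚ Qbar P.freyCurve.a₂ =
        ((P.b ^ P.p - 1 - P.a ^ P.p : ℤ) : Qbar) / 4 := by
      simp [FreyPackage.freyCurve]
    rw [e, map_div₀, hv4, div_one]
    exact hint _
  · show A.valuation (algebraMap ℚ Qbar P.freyCurve.a₃) ≤ 1
    simp [FreyPackage.freyCurve]
  · show A.valuation (algebraMap ℚ Qbar P.freyCurve.a₄) ≤ 1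
    have e : algebraMap ℚ Qbar P.freyCurve.a₄ =
        ((-(P.a ^ P.p) * P.b ^ P.p : ℤ) : Qbar) / 16 := by
      simp [FreyPackage.freyCurve]
    rw [e, map_div₀, hv16, div_one]
    exact hint _
  · show A.valuation (algebraMap ℚ Qbar P.freyCurve.a₆) ≤ 1
    simp [FreyPackage.freyCurve]

/-- **S13 / WP4, packaged.**  For `A` over an odd prime `q` (`q = p` allowed) and `σ` in the
inertia group of `A`, `(σ - 1)` maps `V = E[p]` into `T = V ∩ E₁(A)`. -/
theorem frey_inertia_sub_mem_kerRedTorsion {q : ℕ} (hq : q.Prime) (hq2 : q ≠ 2)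
    (A : ValuationSubring Qbar) (hA : A.LiesOverPrime q) {σ : Qbar ≃ₐ[ℚ] Qbar}
    (hσ : σ ∈ A.inertiaSubgroupIn ℚ)
    (x : Submodule.torsionBy ℤ (P.freyCurve⁄Qbar).Point P.p) :
    σ • x - x ∈ kerRedTorsion A P.freyCurve (frey_isIntegralAt_of_odd P hq hq2 A hA) P.p := by
  rw [mem_kerRedTorsion_iff]
  have hx : (P.p : ℤ) • (x : (P.freyCurve⁄Qbar).Point) = 0 :=
    (Submodule.mem_torsionBy_iff _ _).mp x.property
  exact frey_inertia_sub_inKerRed P hq hq2 A hA hσ x.val hx

/-- The instance at the Frey prime `p` itself. -/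
theorem frey_inertia_sub_mem_kerRedTorsion_at_p
    (A : ValuationSubring Qbar) (hA : A.LiesOverPrime P.p) {σ : Qbar ≃ₐ[ℚ] Qbar}
    (hσ : σ ∈ A.inertiaSubgroupIn ℚ)
    (x : Submodule.torsionBy ℤ (P.freyCurve⁄Qbar).Point P.p) :
    σ • x - x ∈ kerRedTorsion A P.freyCurve
      (frey_isIntegralAt_of_odd P P.pp (by have := P.hp5; omega) A hA) P.p :=
  frey_inertia_sub_mem_kerRedTorsion P P.pp (by have := P.hp5; omega) A hA hσ x

end frey

end Fermat.Agent.H92
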