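import Mathlib

set_option autoImplicit false

namespace Fermat.Agent.H92

/-- A nonzero natural number all of whose `p`-adic valuations are even is a perfect square. -/
theorem isSquare_nat_of_even_padicValNat :
    ∀ n : ℕ, n ≠ 0 → (∀ p : ℕ, p.Prime → Even (padicValNat p n)) → IsSquare n := by
  intro n
  induction n using Nat.strong_induction_on with
  | _ n ih =>
    intro hn h
    by_cases h1 : n = 1
    · subst h1; exact IsSquare.one
    have hp : (Nat.minFac n).Prime := Nat.minFac_prime h1
    set p := Nat.minFac n with hpdef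
    have : Fact p.Prime := ⟨hp⟩
    have hpn : p ∣ n := Nat.minFac_dvd n
    have hv1 : 1 ≤ padicValNat p n := one_le_padicValNat_of_dvd hn hpn
    have hv2 : 2 ≤ padicValNat p n := by
      obtain ⟨k, hk⟩ := h p hp
      omega
    have hp2 : p ^ 2 ∣ n := (padicValNat_dvd_iff_le hn).mpr hv2
    obtain ⟨m, hm⟩ := hp2
    have hm0 : m ≠ 0 := by
      rintro rfl
      simp at hm
      exact hn hm
    have hp2pos : 1 < p ^ 2 := Nat.one_lt_pow (by norm_num) hp.one_lt
    have hmn : m < n := by
      rw [hm]
      calc m = 1 * m := (one_mul m).symm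
        _ < p ^ 2 * m := Nat.mul_lt_mul_of_pos_right hp2pos (Nat.pos_of_ne_zero hm0)
    have hm' : ∀ q : ℕ, q.Prime → Even (padicValNat q m) := by
      intro q hq
      have : Fact q.Prime := ⟨hq⟩
      have hq' := h q hq
      rw [hm, padicValNat.mul (pow_ne_zero 2 hp.ne_zero) hm0, padicValNat.pow p 2] at hq'
      have h2 : Even (2 * padicValNat q p) := even_two_mul _
      exact (Nat.even_add.mp hq').mp h2
    obtain ⟨k, hk⟩ := ih m hmn hm0 hm'
    exact ⟨p * k, by rw [hm, hk]; ring⟩

/-- A positive rational number all of whose `p`-adic valuations are even is a square. -/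
theorem isSquare_rat_of_even_padicValRat (q : ℚ) (hq : 0 < q)
    (h : ∀ p : ℕ, p.Prime → Even (padicValRat p q)) : IsSquare q := by
  rw [Rat.isSquare_iff]
  have hnum : 0 < q.num := Rat.num_pos.mpr hq
  have hcop : Nat.Coprime q.num.natAbs q.den := q.reduced
  have key : ∀ p : ℕ, p.Prime →
      Even (padicValNat p q.num.natAbs) ∧ Even (padicValNat p q.den) := by
    intro p hp
    have : Fact p.Prime := ⟨hp⟩
    have hpq := h p hp
    rw [padicValRat_def, padicValInt] at hpq
    by_cases hd : p ∣ q.den
    · have hn : ¬ p ∣ q.num.natAbs := fun hn =>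
        hp.one_lt.ne' (Nat.eq_one_of_dvd_coprimes hcop hn hd)
      have h0 : padicValNat p q.num.natAbs = 0 := padicValNat.eq_zero_of_not_dvd hn
      rw [h0] at hpq ⊢
      refine ⟨by simp, ?_⟩
      simpa [Int.even_sub, Int.even_coe_nat] using hpq
    · have h0 : padicValNat p q.den = 0 := padicValNat.eq_zero_of_not_dvd hd
      rw [h0] at hpq ⊢
      refine ⟨?_, by simp⟩
      simpa [Int.even_sub, Int.even_coe_nat] using hpq
  constructor
  · have : IsSquare q.num.natAbs :=
      isSquare_nat_of_even_padicValNat _ (Int.natAbs_ne_zero.mpr hnum.ne') fun p hp => (key p hp).1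
    obtain ⟨k, hk⟩ := this
    refine ⟨(k : ℤ), ?_⟩
    have : (q.num.natAbs : ℤ) = q.num := Int.natAbs_of_nonneg hnum.le
    rw [← this, hk]; push_cast; ring
  · exact isSquare_nat_of_even_padicValNat _ q.den_nz fun p hp => (key p hp).2

end Fermat.Agent.H92
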