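import Mathlib

set_option autoImplicit false

namespace Fermat.Agent.H92

theorem zmod_three_sq_add_sq_ne_zero :
    ∀ x y : ZMod 3, x ≠ 0 → y ≠ 0 → x ^ 2 + y ^ 2 ≠ 0 := by decide

/-- A nonzero rational of `p`-adic valuation zero has numerator and denominator prime to `p`. -/
theorem not_dvd_num_den_of_padicValRat_eq_zero (p : ℕ) [hp : Fact p.Prime] (B : ℚ) (hB : B ≠ 0)
    (h : padicValRat p B = 0) : ¬ (p : ℤ) ∣ B.num ∧ ¬ p ∣ B.den := by
  have hcop : Nat.Coprime B.num.natAbs B.den := B.reduced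
  rw [padicValRat_def, padicValInt] at h
  have hnum : B.num ≠ 0 := Rat.num_ne_zero.mpr hB
  by_cases hd : p ∣ B.den
  · exfalso
    have hn : ¬ p ∣ B.num.natAbs := fun hn =>
      hp.out.one_lt.ne' (Nat.eq_one_of_dvd_coprimes hcop hn hd)
    have h0 : padicValNat p B.num.natAbs = 0 := padicValNat.eq_zero_of_not_dvd hn
    have h1 : 1 ≤ padicValNat p B.den := one_le_padicValNat_of_dvd B.den_nz hd
    rw [h0] at h
    omega
  · refine ⟨?_, hd⟩
    intro hn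
    have hn' : p ∣ B.num.natAbs := Int.natCast_dvd.mp hn
    have h0 : padicValNat p B.den = 0 := padicValNat.eq_zero_of_not_dvd hd
    have h1 : 1 ≤ padicValNat p B.num.natAbs :=
      one_le_padicValNat_of_dvd (Int.natAbs_ne_zero.mpr hnum) hn'
    rw [h0] at h
    omega

/-- For a `3`-adic unit `B`, the number `B ^ 2 + 1` is again a `3`-adic unit. -/
theorem padicValRat_three_sq_add_one (B : ℚ) (hB : B ≠ 0) (h : padicValRat 3 B = 0) :
    padicValRat 3 (B ^ 2 + 1) = 0 := by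
  have : Fact (Nat.Prime 3) := ⟨by norm_num⟩
  obtain ⟨hn, hd⟩ := not_dvd_num_den_of_padicValRat_eq_zero 3 B hB h
  have hd0 : (B.den : ℚ) ≠ 0 := by exact_mod_cast B.den_nz
  have hden_ne : (((B.den : ℤ) ^ 2 : ℤ) : ℚ) ≠ 0 := by
    push_cast; exact pow_ne_zero 2 hd0
  have hrepr : B ^ 2 + 1 = ((B.num ^ 2 + (B.den : ℤ) ^ 2 : ℤ) : ℚ) / (((B.den : ℤ) ^ 2 : ℤ) : ℚ) := by
    have hB' : B * B.den = B.num := Rat.mul_den_eq_num B
    rw [eq_div_iff hden_ne]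
    push_cast
    rw [← hB']
    ring
  have hndvd : ¬ ((3 : ℕ) : ℤ) ∣ (B.num ^ 2 + (B.den : ℤ) ^ 2) := by
    intro hdvd
    have h1 : ((B.num ^ 2 + (B.den : ℤ) ^ 2 : ℤ) : ZMod 3) = 0 :=
      (ZMod.intCast_zmod_eq_zero_iff_dvd _ 3).mpr hdvd
    have hn' : (B.num : ZMod 3) ≠ 0 := fun h0 =>
      hn ((ZMod.intCast_zmod_eq_zero_iff_dvd _ 3).mp h0)
    have hd' : ((B.den : ℤ) : ZMod 3) ≠ 0 := fun h0 =>
      hd (by exact_mod_cast (ZMod.intCast_zmod_eq_zero_iff_dvd _ 3).mp h0)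
    apply zmod_three_sq_add_sq_ne_zero _ _ hn' hd'
    push_cast at h1
    exact h1
  have hsum_ne : ((B.num ^ 2 + (B.den : ℤ) ^ 2 : ℤ) : ℚ) ≠ 0 := by
    intro h0
    apply hndvd
    have : (B.num ^ 2 + (B.den : ℤ) ^ 2 : ℤ) = 0 := by exact_mod_cast h0
    rw [this]; exact dvd_zero _
  rw [hrepr, padicValRat.div hsum_ne hden_ne, padicValRat.of_int, padicValRat.of_int,
    padicValInt.eq_zero_of_not_dvd hndvd]
  have : ¬ ((3 : ℕ) : ℤ) ∣ ((B.den : ℤ) ^ 2) := by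
    intro hdvd
    have h3 : Prime ((3 : ℕ) : ℤ) := Nat.prime_iff_prime_int.mp (by norm_num)
    have := h3.dvd_of_dvd_pow hdvd
    exact hd (by exact_mod_cast this)
  rw [padicValInt.eq_zero_of_not_dvd this]
  simp

/-- For a `2`-adic unit `A` with `A ^ 2 ≠ 9`, `A ^ 2 - 9` is divisible by `8`. -/
theorem three_le_padicValRat_two_sq_sub_nine (A : ℚ) (hA : A ≠ 0) (h : padicValRat 2 A = 0)
    (hne : A ^ 2 - 9 ≠ 0) : 3 ≤ padicValRat 2 (A ^ 2 - 9) := by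
  have : Fact (Nat.Prime 2) := ⟨by norm_num⟩
  obtain ⟨hn, hd⟩ := not_dvd_num_den_of_padicValRat_eq_zero 2 A hA h
  have hd0 : (A.den : ℚ) ≠ 0 := by exact_mod_cast A.den_nz
  have hden_ne : (((A.den : ℤ) ^ 2 : ℤ) : ℚ) ≠ 0 := by
    push_cast; exact pow_ne_zero 2 hd0
  have hrepr : A ^ 2 - 9 =
      ((A.num ^ 2 - 9 * (A.den : ℤ) ^ 2 : ℤ) : ℚ) / (((A.den : ℤ) ^ 2 : ℤ) : ℚ) := by
    have hA' : A * A.den = A.num := Rat.mul_den_eq_num A
    rw [eq_div_iff hden_ne]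
    push_cast
    rw [← hA']
    ring
  have hnodd : Odd A.num := by
    rw [← Int.not_even_iff_odd]
    intro he
    exact hn (by simpa using he.two_dvd)
  have hdodd : Odd (A.den : ℤ) := by
    rw [← Int.not_even_iff_odd]
    intro he
    have : (2 : ℤ) ∣ (A.den : ℤ) := he.two_dvd
    exact hd (by exact_mod_cast this)
  have h8 : ((2 : ℕ) : ℤ) ^ 3 ∣ (A.num ^ 2 - 9 * (A.den : ℤ) ^ 2) := by
    obtain ⟨k, hk⟩ := hnodd
    obtain ⟨j, hj⟩ := hdodd
    obtain ⟨a, ha⟩ := Int.even_mul_succ_self k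
    obtain ⟨b, hb⟩ := Int.even_mul_succ_self j
    refine ⟨a - 9 * b - 1, ?_⟩
    rw [hk, hj]
    push_cast
    linear_combination 4 * ha - 36 * hb
  have hnum_ne : ((A.num ^ 2 - 9 * (A.den : ℤ) ^ 2 : ℤ) : ℚ) ≠ 0 := by
    intro h0
    apply hne
    rw [hrepr, h0, zero_div]
  have hnum_ne' : (A.num ^ 2 - 9 * (A.den : ℤ) ^ 2 : ℤ) ≠ 0 := by
    intro h0; apply hnum_ne; rw [h0]; simp
  rw [hrepr, padicValRat.div hnum_ne hden_ne, padicValRat.of_int, padicValRat.of_int]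
  have hden : ¬ ((2 : ℕ) : ℤ) ∣ ((A.den : ℤ) ^ 2) := by
    intro hdvd
    have h2 : Prime ((2 : ℕ) : ℤ) := Nat.prime_iff_prime_int.mp (by norm_num)
    have := h2.dvd_of_dvd_pow hdvd
    exact hd (by exact_mod_cast this)
  rw [padicValInt.eq_zero_of_not_dvd hden]
  have := (padicValInt_dvd_iff (p := 2) 3 (A.num ^ 2 - 9 * (A.den : ℤ) ^ 2)).mp h8
  rcases this with h0 | h3
  · exact absurd h0 hnum_ne'
  · simp only [Nat.cast_zero, sub_zero]
    exact_mod_cast h3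

end Fermat.Agent.H92
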