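import Mathlib
import Fermat.Agent.H92.SquareVal
import Fermat.Agent.H92.UnitCongr

set_option autoImplicit false

namespace Fermat.Agent.H92

theorem padicValRat_prime_cast (p q : ℕ) [hp : Fact p.Prime] (hq : q.Prime) :
    padicValRat p (q : ℚ) = if p = q then 1 else 0 := by
  split_ifs with h
  · subst h
    exact padicValRat.self hp.out.one_lt
  · rw [padicValRat.of_nat]
    have : ¬ p ∣ q := fun hd => h ((Nat.prime_dvd_prime_iff_eq hp.out hq).mp hd)
    rw [padicValNat.eq_zero_of_not_dvd this]
    rfl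

theorem padicValRat_nine (p : ℕ) [Fact p.Prime] :
    padicValRat p (9 : ℚ) = if p = 3 then 2 else 0 := by
  have h9 : (9 : ℚ) = ((3 : ℕ) : ℚ) ^ 2 := by norm_num
  rw [h9, padicValRat.pow, padicValRat_prime_cast p 3 (by norm_num)]
  split_ifs <;> simp

theorem padicValRat_twentyfive (p : ℕ) [Fact p.Prime] :
    padicValRat p (25 : ℚ) = if p = 5 then 2 else 0 := by
  have h : (25 : ℚ) = ((5 : ℕ) : ℚ) ^ 2 := by norm_num
  rw [h, padicValRat.pow, padicValRat_prime_cast p 5 (by norm_num)]
  split_ifs <;> simp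

theorem padicValRat_sixteen (p : ℕ) [Fact p.Prime] :
    padicValRat p (16 : ℚ) = if p = 2 then 4 else 0 := by
  have h : (16 : ℚ) = ((2 : ℕ) : ℚ) ^ 4 := by norm_num
  rw [h, padicValRat.pow, padicValRat_prime_cast p 2 (by norm_num)]
  split_ifs <;> simp

theorem padicValRat_three_twentyfour : padicValRat 3 (24 : ℚ) = 1 := by
  have : Fact (Nat.Prime 3) := ⟨by norm_num⟩
  have h : (24 : ℚ) = ((3 : ℕ) : ℚ) * ((2 : ℕ) : ℚ) ^ 3 := by norm_num
  rw [h, padicValRat.mul (by norm_num) (by norm_num), padicValRat.pow,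
    padicValRat_prime_cast 3 3 (by norm_num), padicValRat_prime_cast 3 2 (by norm_num)]
  simp

/-- valuation of a difference: lower bound and exact value when valuations differ -/
theorem padicValRat_sub_facts (p : ℕ) [Fact p.Prime] (x y : ℚ) (hx : x ≠ 0) (hy : y ≠ 0)
    (hxy : x - y ≠ 0) :
    min (padicValRat p x) (padicValRat p y) ≤ padicValRat p (x - y) ∧
    (padicValRat p x ≠ padicValRat p y →
      padicValRat p (x - y) = min (padicValRat p x) (padicValRat p y)) := by
  have hxy' : x + (-y) ≠ 0 := by rwa [← sub_eq_add_neg]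
  have h1 := padicValRat.min_le_padicValRat_add (p := p) hxy'
  rw [padicValRat.neg, ← sub_eq_add_neg] at h1
  refine ⟨h1, fun hne => ?_⟩
  have h2 := padicValRat.add_eq_min (p := p) hxy' hx (neg_ne_zero.mpr hy)
    (by rwa [padicValRat.neg])
  rwa [padicValRat.neg, ← sub_eq_add_neg] at h2

/-- Parity of valuations in the 2-descent class analysis. -/
theorem val_parity (A B C : ℚ) (hA : 0 < A) (hB : 0 < B) (hC : 0 < C)
    (h1 : A * (B - C) = 9) (h2 : B * (A - C) = 25) (p : ℕ) [hp : Fact p.Prime] :
    Even (padicValRat p A + padicValRat p C) ∧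
      (p ≠ 5 → Even (padicValRat p A + padicValRat p B)) := by
  have h3 : C * (A - B) = 16 := by linear_combination h2 - h1
  have hA0 : A ≠ 0 := hA.ne'
  have hB0 : B ≠ 0 := hB.ne'
  have hC0 : C ≠ 0 := hC.ne'
  have hBC : B - C ≠ 0 := by
    intro h; rw [h, mul_zero] at h1; norm_num at h1
  have hAC : A - C ≠ 0 := by
    intro h; rw [h, mul_zero] at h2; norm_num at h2
  have hAB : A - B ≠ 0 := by
    intro h; rw [h, mul_zero] at h3; norm_num at h3
  have e1 : padicValRat p A + padicValRat p (B - C) = padicValRat p (9 : ℚ) := by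
    rw [← padicValRat.mul hA0 hBC, h1]
  have e2 : padicValRat p B + padicValRat p (A - C) = padicValRat p (25 : ℚ) := by
    rw [← padicValRat.mul hB0 hAC, h2]
  have e3 : padicValRat p C + padicValRat p (A - B) = padicValRat p (16 : ℚ) := by
    rw [← padicValRat.mul hC0 hAB, h3]
  rw [padicValRat_nine] at e1
  rw [padicValRat_twentyfive] at e2
  rw [padicValRat_sixteen] at e3
  obtain ⟨ha, ha'⟩ := padicValRat_sub_facts p B C hB0 hC0 hBC
  obtain ⟨hb, hb'⟩ := padicValRat_sub_facts p A C hA0 hC0 hAC
  obtain ⟨hc, hc'⟩ := padicValRat_sub_facts p A B hA0 hB0 hAB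
  simp only [Int.even_iff]
  generalize hα : padicValRat p A = α at *
  generalize hβ : padicValRat p B = β at *
  generalize hγ : padicValRat p C = γ at *
  generalize ha0 : padicValRat p (B - C) = a' at *
  generalize hb0 : padicValRat p (A - C) = b' at *
  generalize hc0 : padicValRat p (A - B) = c' at *
  by_cases p2 : p = 2
  · subst p2
    simp only [show ¬ (2 = 3) by norm_num, show ¬ (2 = 5) by norm_num, if_true, if_false] at e1 e2 e3
    have hcases : ((α + γ) % 2 = 0 ∧ (α + β) % 2 = 0) ∨
        (α = 0 ∧ β = 0 ∧ (γ = 1 ∧ c' = 3 ∨ γ = 3 ∧ c' = 1)) := by omega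
    rcases hcases with h | ⟨hα0, hβ0, hbad⟩
    · exact ⟨h.1, fun _ => h.2⟩
    · exfalso
      -- AB - 9 = AC, and AB - 9 = A (B - A) + (A^2 - 9)
      have hACne : A * C ≠ 0 := mul_ne_zero hA0 hC0
      have hvAC : padicValRat 2 (A * C) = γ := by
        rw [padicValRat.mul hA0 hC0, hα, hγ, hα0, zero_add]
      have hBA : B - A ≠ 0 := fun h => hAB (by linarith)
      have hvx : padicValRat 2 (A * (B - A)) = c' := by
        rw [padicValRat.mul hA0 hBA, hα, hα0, zero_add, ← hc0, ← padicValRat.neg (A - B)]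
        congr 1; ring
      have hsum : A * (B - A) + (A ^ 2 - 9) = A * C := by linear_combination h1
      by_cases hy : A ^ 2 - 9 = 0
      · rw [hy, add_zero] at hsum
        rw [hsum] at hvx
        omega
      · have hvy := three_le_padicValRat_two_sq_sub_nine A hA0 (by rw [hα, hα0]) hy
        have hx0 : A * (B - A) ≠ 0 := mul_ne_zero hA0 hBA
        have hxy : A * (B - A) + (A ^ 2 - 9) ≠ 0 := by rw [hsum]; exact hACne
        have hmin := padicValRat.min_le_padicValRat_add (p := 2) hxy
        have heq := padicValRat.add_eq_min (p := 2) hxy hx0 hy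
        rw [hsum, hvAC, hvx] at hmin
        rw [hsum, hvAC, hvx] at heq
        omega
  by_cases p3 : p = 3
  · subst p3
    simp only [show ¬ (3 = 2) by norm_num, show ¬ (3 = 5) by norm_num, if_true, if_false] at e1 e2 e3
    have hcases : ((α + γ) % 2 = 0 ∧ (α + β) % 2 = 0) ∨
        (α = 1 ∧ β = 0 ∧ γ = 0 ∧ a' = 1) := by omega
    rcases hcases with h | ⟨hα1, hβ0, hγ0, ha1⟩
    · exact ⟨h.1, fun _ => h.2⟩
    · exfalso
      -- B^2 + 1 = B (B - C) + (A B - 24)
      have hunit := padicValRat_three_sq_add_one B hB0 (by rw [hβ, hβ0])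
      have hvx : padicValRat 3 (B * (B - C)) = 1 := by
        rw [padicValRat.mul hB0 hBC, hβ, ha0, hβ0, ha1]; rfl
      have hABne : A * B ≠ 0 := mul_ne_zero hA0 hB0
      have hvAB : padicValRat 3 (A * B) = 1 := by
        rw [padicValRat.mul hA0 hB0, hα, hβ, hα1, hβ0]; rfl
      have hpos : A * B - 24 = B * C + 1 := by linear_combination h2
      have hy0 : A * B - 24 ≠ 0 := by
        rw [hpos]; positivity
      have hvy : 1 ≤ padicValRat 3 (A * B - 24) := by
        have := (padicValRat_sub_facts 3 (A * B) 24 hABne (by norm_num) hy0).1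
        rw [hvAB, padicValRat_three_twentyfour] at this
        simpa using this
      have hsum : B * (B - C) + (A * B - 24) = B ^ 2 + 1 := by linear_combination h2
      have hxy : B * (B - C) + (A * B - 24) ≠ 0 := by
        rw [hsum]; positivity
      have hmin := padicValRat.min_le_padicValRat_add (p := 3) hxy
      rw [hsum, hunit, hvx] at hmin
      omega
  by_cases p5 : p = 5
  · subst p5
    simp only [show ¬ (5 = 2) by norm_num, show ¬ (5 = 3) by norm_num, if_true, if_false] at e1 e2 e3
    refine ⟨by omega, fun h => absurd rfl h⟩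
  · simp only [p2, p3, p5, if_false] at e1 e2 e3
    have : (α + γ) % 2 = 0 ∧ (α + β) % 2 = 0 := by omega
    exact ⟨this.1, fun _ => this.2⟩

/-- **Class analysis** for the 2-descent on `y² = x (x - 9) (x - 25)`. -/
theorem class_analysis (A B C : ℚ) (hA : 0 < A) (hB : 0 < B) (hC : 0 < C)
    (h1 : A * (B - C) = 9) (h2 : B * (A - C) = 25) :
    IsSquare (A * C) ∧ (IsSquare (A * B) ∨ IsSquare (5 * (A * B))) := by
  have hA0 : A ≠ 0 := hA.ne'
  have hB0 : B ≠ 0 := hB.ne'
  have hC0 : C ≠ 0 := hC.ne'
  constructor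
  · apply isSquare_rat_of_even_padicValRat _ (mul_pos hA hC)
    intro p hp
    have : Fact p.Prime := ⟨hp⟩
    rw [padicValRat.mul hA0 hC0]
    exact (val_parity A B C hA hB hC h1 h2 p).1
  · have : Fact (Nat.Prime 5) := ⟨by norm_num⟩
    by_cases h5 : Even (padicValRat 5 (A * B))
    · left
      apply isSquare_rat_of_even_padicValRat _ (mul_pos hA hB)
      intro p hp
      have : Fact p.Prime := ⟨hp⟩
      by_cases hp5 : p = 5
      · subst hp5; exact h5
      · rw [padicValRat.mul hA0 hB0]
        exact (val_parity A B C hA hB hC h1 h2 p).2 hp5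
    · right
      apply isSquare_rat_of_even_padicValRat _ (by positivity)
      intro p hp
      have : Fact p.Prime := ⟨hp⟩
      have h5' : (5 : ℚ) = ((5 : ℕ) : ℚ) := by norm_num
      rw [padicValRat.mul (by norm_num) (mul_ne_zero hA0 hB0), h5',
        padicValRat_prime_cast p 5 (by norm_num)]
      by_cases hp5 : p = 5
      · subst hp5
        simp only [if_true]
        rw [Int.not_even_iff_odd] at h5
        exact Odd.add_odd odd_one h5
      · simp only [hp5, if_false, zero_add]
        rw [padicValRat.mul hA0 hB0]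
        exact (val_parity A B C hA hB hC h1 h2 p).2 hp5

end Fermat.Agent.H92
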