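import Mathlib
import Fermat.Agent.H92.ClassAnalysis

set_option autoImplicit false

namespace Fermat.Agent.H92

/-! ### The finite check -/

/-- Boolean search for small solutions of `v² = w² + 16 e²`, `u² = v² + 9 e²`. -/
def smallSearch (E W V U : ℕ) : Bool :=
  (List.range E).all fun e => (List.range W).all fun w => (List.range V).all fun v =>
    !(decide (0 < e) && decide (0 < w) && decide (v * v = w * w + 16 * (e * e))) ||
      (List.range U).all fun u => !decide (u * u = v * v + 9 * (e * e))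

set_option maxRecDepth 1000000 in
theorem smallSearch_eq_true : smallSearch 17 81 81 81 = true := by decide +kernel

theorem small_check (u v w e : ℕ) (hu : u < 81) (he : 0 < e) (hw : 0 < w)
    (h1 : u ^ 2 = v ^ 2 + 9 * e ^ 2) (h2 : v ^ 2 = w ^ 2 + 16 * e ^ 2) : False := by
  have hvu : v < 81 := by nlinarith
  have hwu : w < 81 := by nlinarith
  have heu : e < 17 := by nlinarith
  have hs := smallSearch_eq_true
  simp only [smallSearch, List.all_eq_true, List.mem_range, Bool.or_eq_true,
    Bool.and_eq_false_iff, decide_eq_false_iff_not,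
    Bool.not_eq_eq_eq_not, Bool.not_true] at hs
  rcases hs e heu w hwu v hvu with h | h
  · rcases h with h | h
    · rcases h with h | h
      · exact h he
      · exact h hw
    · apply h; nlinarith
  · apply h u hu; nlinarith

/-! ### From rational to integral solutions -/

theorem int_solution_of_rat (a b c : ℚ) (hc : 0 < c)
    (e1 : a ^ 2 - b ^ 2 = 9) (e2 : b ^ 2 - c ^ 2 = 16) :
    ∃ v w : ℕ, 0 < w ∧ a.num.natAbs ^ 2 = v ^ 2 + 9 * a.den ^ 2 ∧
      v ^ 2 = w ^ 2 + 16 * a.den ^ 2 := by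
  have hu : (a.num : ℚ) = a * a.den := (Rat.mul_den_eq_num a).symm
  have hd0 : (0 : ℚ) < a.den := by exact_mod_cast a.den_pos
  -- the middle square
  have hsq2 : IsSquare ((a.num ^ 2 - 9 * (a.den : ℤ) ^ 2 : ℤ) : ℚ) := by
    refine ⟨b * a.den, ?_⟩
    push_cast
    rw [hu]
    linear_combination (a.den : ℚ) ^ 2 * e1
  have hsq3 : IsSquare ((a.num ^ 2 - 25 * (a.den : ℤ) ^ 2 : ℤ) : ℚ) := by
    refine ⟨c * a.den, ?_⟩
    push_cast
    rw [hu]
    linear_combination (a.den : ℚ) ^ 2 * e1 + (a.den : ℚ) ^ 2 * e2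
  rw [Rat.isSquare_intCast_iff] at hsq2 hsq3
  obtain ⟨k, hk⟩ := hsq2
  obtain ⟨m, hm⟩ := hsq3
  refine ⟨k.natAbs, m.natAbs, ?_, ?_, ?_⟩
  · rw [Int.natAbs_pos]
    rintro rfl
    have h0 : (a.num : ℚ) ^ 2 - 25 * (a.den : ℚ) ^ 2 = 0 := by
      have h := hm
      rw [mul_zero] at h
      exact_mod_cast h
    rw [hu] at h0
    have : c ^ 2 * (a.den : ℚ) ^ 2 = 0 := by
      linear_combination h0 - (a.den : ℚ) ^ 2 * e1 - (a.den : ℚ) ^ 2 * e2
    have hpos : 0 < c ^ 2 * (a.den : ℚ) ^ 2 := by positivity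
    exact absurd this hpos.ne'
  · have : ((a.num.natAbs : ℤ)) ^ 2 = (k.natAbs : ℤ) ^ 2 + 9 * (a.den : ℤ) ^ 2 := by
      rw [Int.natAbs_sq k, Int.natAbs_sq a.num]
      linear_combination hk
    exact_mod_cast this
  · have : ((k.natAbs : ℤ)) ^ 2 = (m.natAbs : ℤ) ^ 2 + 16 * (a.den : ℤ) ^ 2 := by
      rw [Int.natAbs_sq k, Int.natAbs_sq m]
      linear_combination hm - hk
    exact_mod_cast this

/-! ### The halving step -/

theorem not_isSquare_five_rat : ¬ IsSquare (5 : ℚ) := by
  have h : (5 : ℚ) = ((5 : ℕ) : ℚ) := by norm_num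
  rw [h, Rat.isSquare_natCast_iff]
  rintro ⟨r, hr⟩
  have hr3 : r < 3 := by nlinarith
  interval_cases r <;> omega

theorem half_solution (a b c : ℚ) (ha : 0 < a) (hb : 0 < b) (hc : 0 < c)
    (e1 : a ^ 2 - b ^ 2 = 9) (e2 : b ^ 2 - c ^ 2 = 16) :
    ∃ a' b' c' : ℚ, 0 < a' ∧ 0 < b' ∧ 0 < c' ∧ a' ^ 2 - b' ^ 2 = 9 ∧ b' ^ 2 - c' ^ 2 = 16 ∧
      (a' ^ 2 = 9 * (a + c) / (a - b) ∨ a' ^ 2 = 45 * (b + 4) / (5 * b - 4 * a)) := by
  have hab : 0 < a - b := by
    have : (a - b) * (a + b) = 9 := by linear_combination e1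
    by_contra hneg
    push Not at hneg
    nlinarith
  have hbc : 0 < b - c := by
    have : (b - c) * (b + c) = 16 := by linear_combination e2
    by_contra hneg
    push Not at hneg
    nlinarith
  have hA : 0 < a + b := by positivity
  have hB : 0 < a + c := by positivity
  have hC : 0 < b + c := by positivity
  have h1 : (a + b) * ((a + c) - (b + c)) = 9 := by linear_combination e1
  have h2 : (a + c) * ((a + b) - (b + c)) = 25 := by linear_combination e1 + e2
  obtain ⟨⟨γ, hγ⟩, hAB⟩ := class_analysis (a + b) (a + c) (b + c) hA hB hC h1 h2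
  -- a general construction of the new solution from square roots
  have build : ∀ (A B C β γ : ℚ), 0 < A → 0 < B → 0 < C → A * (B - C) = 9 → B * (A - C) = 25 →
      A * B = β * β → A * C = γ * γ →
      ∃ a' b' c' : ℚ, 0 < a' ∧ 0 < b' ∧ 0 < c' ∧ a' ^ 2 - b' ^ 2 = 9 ∧ b' ^ 2 - c' ^ 2 = 16 ∧
        a' ^ 2 = A * B := by
    intro A B C β γ hA hB hC h1 h2 hβ hγ
    have hβ0 : β ≠ 0 := by
      rintro rfl
      have : 0 < A * B := mul_pos hA hB
      rw [hβ] at this; simp at this
    have hγ0 : γ ≠ 0 := by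
      rintro rfl
      have : 0 < A * C := mul_pos hA hC
      rw [hγ] at this; simp at this
    refine ⟨|β|, |γ|, |β| * |γ| / A, abs_pos.mpr hβ0, abs_pos.mpr hγ0, by positivity, ?_, ?_, ?_⟩
    · rw [sq_abs, sq_abs]
      linear_combination h1 - hβ + hγ
    · rw [div_pow, mul_pow, sq_abs, sq_abs]
      have hA0 : A ≠ 0 := hA.ne'
      field_simp
      have hβ2 : β ^ 2 = A * B := by rw [hβ]; ring
      have hγ2 : γ ^ 2 = A * C := by rw [hγ]; ring
      rw [hβ2, hγ2]
      linear_combination (A ^ 2) * (h2 - h1)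
    · rw [sq_abs, hβ]; ring
  rcases hAB with ⟨β, hβ⟩ | ⟨β, hβ⟩
  · obtain ⟨a', b', c', ha', hb', hc', he1, he2, hval⟩ :=
      build (a + b) (a + c) (b + c) β γ hA hB hC h1 h2 hβ hγ
    refine ⟨a', b', c', ha', hb', hc', he1, he2, Or.inl ?_⟩
    rw [hval, eq_div_iff hab.ne']
    linear_combination (a + c) * e1
  · -- pass to the translate by the 2-torsion point (25, 0)
    have hc0 : c ≠ 0 := hc.ne'
    have h54 : 0 < 5 * b - 4 * a := by
      have : (5 * b - 4 * a) * (5 * b + 4 * a) = 9 * c ^ 2 := by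
        linear_combination (-16) * e1 + 9 * e2
      by_contra hneg
      push Not at hneg
      have hpos : 0 < 9 * c ^ 2 := by positivity
      nlinarith
    have hA' : 0 < 5 * b / c + 4 * a / c := by positivity
    have hB' : 0 < 5 * b / c + 20 / c := by positivity
    have hC' : 0 < 4 * a / c + 20 / c := by positivity
    have h1' : (5 * b / c + 4 * a / c) * ((5 * b / c + 20 / c) - (4 * a / c + 20 / c)) = 9 := by
      field_simp
      linear_combination (-16) * e1 + 9 * e2
    have h2' : (5 * b / c + 20 / c) * ((5 * b / c + 4 * a / c) - (4 * a / c + 20 / c)) = 25 := by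
      field_simp
      linear_combination 25 * e2
    obtain ⟨⟨γ', hγ'⟩, hAB'⟩ := class_analysis _ _ _ hA' hB' hC' h1' h2'
    rcases hAB' with ⟨β', hβ'⟩ | ⟨β', hβ'⟩
    · obtain ⟨a', b', c', ha', hb', hc', he1, he2, hval⟩ :=
        build _ _ _ β' γ' hA' hB' hC' h1' h2' hβ' hγ'
      refine ⟨a', b', c', ha', hb', hc', he1, he2, Or.inr ?_⟩
      rw [hval, eq_div_iff h54.ne']
      field_simp
      linear_combination (b + 4) * (-80 * e1 + 45 * e2)
    · exfalso
      -- then 5 would be a rational square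
      set G := (a + b) * (a + c) + 4 * a + 5 * b - c - 5 with hG
      have hGpos : 0 < G := by
        have ha5 : 5 < a := by
          have : a ^ 2 = c ^ 2 + 25 := by linear_combination e1 + e2
          have hc2 : 0 < c ^ 2 := by positivity
          nlinarith
        have hbc' : c < b := by linarith
        have : 0 < (a + b) * (a + c) := by positivity
        rw [hG]; nlinarith
      have hident : 4 * ((a + b) * (a + c) * (4 * a + 5 * b) * (b + 4)) = 9 * G ^ 2 := by
        rw [hG]
        linear_combination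
          (-9 * a ^ 2 - 2 * a * b - 18 * a * c - 8 * a + 18 * b ^ 2 - 20 * b * c - 18 * b
            - 9 * c ^ 2 + 10 * c - 135) * e1 +
          (18 * a * b - 18 * a + 18 * b ^ 2 - 18 * b + 90) * e2
      apply not_isSquare_five_rat
      refine ⟨2 * c * β * β' / (15 * G), ?_⟩
      have hG0 : G ≠ 0 := hGpos.ne'
      have hprod : (β * β) * (β' * β') * c ^ 2 =
          25 * ((a + b) * (a + c)) * ((5 * b + 4 * a) * (5 * b + 20)) := by
        rw [← hβ, ← hβ']
        field_simp
        norm_num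
      have key : (2 * c * β * β') ^ 2 = 5 * (15 * G) ^ 2 := by
        linear_combination 4 * hprod + 125 * hident
      have h15 : (15 * G) ^ 2 ≠ 0 := by positivity
      rw [div_mul_div_comm, eq_div_iff (by positivity)]
      linear_combination (-1 : ℚ) * key

end Fermat.Agent.H92
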