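import Mathlib

/-!
# Doerge-type lemma, part 4: bounded denominators

For `G ∈ ℚ[t][z]` monic in `z` there is `D0 > 0` such that for all `n ∈ ℕ` every rational root `z`
of `G(z, n)` has `D0 * z ∈ ℤ`.
-/

set_option autoImplicit false

noncomputable section

namespace Fermat.Agent.H92

open Polynomial

theorem exists_denominator (G : ℚ[X][X]) (hG : G.Monic) :
    ∃ D0 : ℕ, 0 < D0 ∧ ∀ (n : ℕ) (z : ℚ), (G.map (evalRingHom (n : ℚ))).eval z = 0 →
      ∃ y : ℤ, (y : ℚ) = D0 * z := by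
  classical
  have hb : ∀ i : ℕ, ∃ b : ℤ, b ≠ 0 ∧ ∃ q : ℤ[X],
      q.map (algebraMap ℤ ℚ) = b • G.coeff i := by
    intro i
    obtain ⟨b, hb, hq⟩ := IsLocalization.integerNormalization_spec (nonZeroDivisors ℤ) (G.coeff i)
    exact ⟨b, nonZeroDivisors.ne_zero hb, _, hq⟩
  choose b hb0 q hq using hb
  set d := G.natDegree with hd
  have hDpos : 0 < ∏ i ∈ Finset.range d, (b i).natAbs :=
    Finset.prod_pos fun i _ => Int.natAbs_pos.mpr (hb0 i)
  refine ⟨∏ i ∈ Finset.range d, (b i).natAbs, hDpos, fun n z hz => ?_⟩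
  set D0 := ∏ i ∈ Finset.range d, (b i).natAbs with hD0
  -- `D0 * c_i(n)` is an integer for `i < d`
  have hint : ∀ i < d, ∃ k : ℤ, (k : ℚ) = D0 * (G.coeff i).eval (n : ℚ) := by
    intro i hi
    have hdvd : (b i).natAbs ∣ D0 := Finset.dvd_prod_of_mem _ (Finset.mem_range.mpr hi)
    have hdvd' : b i ∣ (D0 : ℤ) := Int.dvd_natCast.mpr hdvd
    obtain ⟨e, he⟩ := hdvd'
    have h1 : ((((q i).eval (n : ℤ)) : ℤ) : ℚ) = (b i : ℚ) * (G.coeff i).eval (n : ℚ) := by
      have := congrArg (fun p => p.eval (n : ℚ)) (hq i)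
      simp only [zsmul_eq_mul, eval_mul, eval_intCast] at this
      rw [← this, eval_map, algebraMap_int_eq]
      have h := eval₂_at_intCast (p := q i) (f := Int.castRingHom ℚ) (n : ℤ)
      simp only [eq_intCast, Int.cast_natCast] at h
      exact h.symm
    refine ⟨e * (q i).eval (n : ℤ), ?_⟩
    have he' : (D0 : ℚ) = (b i : ℚ) * (e : ℚ) := by exact_mod_cast he
    rw [he']
    push_cast
    rw [h1]
    ring
  set f := G.map (evalRingHom (n : ℚ)) with hf
  have hfm : f.Monic := hG.map _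
  have hfd : f.natDegree = d := hG.natDegree_map _
  have hlift : scaleRoots f (D0 : ℚ) ∈ lifts (algebraMap ℤ ℚ) := by
    rw [lifts_iff_coeff_lifts]
    intro i
    rw [coeff_scaleRoots, hfd]
    rcases lt_trichotomy i d with h | h | h
    · obtain ⟨k, hk⟩ := hint i h
      refine ⟨k * (D0 : ℤ) ^ (d - i - 1), ?_⟩
      have h3 : d - i = (d - i - 1) + 1 := by omega
      have h4 : f.coeff i = (G.coeff i).eval (n : ℚ) := by
        rw [hf, coeff_map, coe_evalRingHom]
      rw [h4]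
      show algebraMap ℤ ℚ (k * (D0 : ℤ) ^ (d - i - 1)) = _
      rw [algebraMap_int_eq, eq_intCast]
      push_cast
      rw [hk]
      conv_rhs => rw [h3, pow_succ]
      ring
    · subst h
      refine ⟨1, ?_⟩
      rw [← hfd, hfm.coeff_natDegree]
      simp
    · refine ⟨0, ?_⟩
      rw [coeff_eq_zero_of_natDegree_lt (hfd ▸ h)]
      simp
  obtain ⟨p, hp, -, hpm⟩ := lifts_and_natDegree_eq_and_monic hlift
    ((monic_scaleRoots_iff _).mpr hfm)
  have hroot : (scaleRoots f (D0 : ℚ)).eval ((D0 : ℚ) * z) = 0 := by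
    rw [scaleRoots_eval_mul, hz, mul_zero]
  have hint2 : IsIntegral ℤ ((D0 : ℚ) * z) := by
    refine ⟨p, hpm, ?_⟩
    rw [← hp, eval_map] at hroot
    exact hroot
  obtain ⟨y, hy⟩ := IsIntegrallyClosed.isIntegral_iff.mp hint2
  exact ⟨y, by simpa using hy⟩

end Fermat.Agent.H92
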