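import Mathlib

/-!
# Doerge-type lemma, part 5: finite differences

An integer sequence which is uniformly close to the values of a complex polynomial of degree
`≤ w` has vanishing `(w+1)`-th differences, and then agrees with a rational polynomial of degree
`≤ w`.
-/

set_option autoImplicit false

noncomputable section

namespace Fermat.Agent.H92

open Polynomial

open scoped fwdDiff

/-- The `n`-th finite difference of a polynomial of degree `< n` vanishes (explicit form). -/
theorem sum_choose_eval_eq_zero {R : Type*} [CommRing R] (P : R[X]) (n : ℕ)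
    (hP : P.natDegree < n) (y : R) :
    ∑ k ∈ Finset.range (n + 1), (((-1 : ℤ) ^ (n - k) * (n.choose k : ℤ) : ℤ) : R) *
      P.eval (y + (k : R)) = 0 := by
  have h := congrFun (Polynomial.fwdDiff_iter_eq_zero_of_degree_lt hP) y
  rw [fwdDiff_iter_eq_sum_shift] at h
  simp only [Pi.zero_apply] at h
  rw [← h]
  refine Finset.sum_congr rfl fun k _ => ?_
  rw [zsmul_eq_mul, nsmul_eq_mul, mul_one]

/-- **Integer differences vanish.** -/
theorem fwdDiff_eq_zero_of_close (f : ℕ → ℤ) (pc : ℂ[X]) (w L : ℕ) (η : ℝ)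
    (hdeg : pc.natDegree ≤ w) (hη : 2 ^ (w + 1) * η < 1)
    (hclose : ∀ s < L, ‖(f s : ℂ) - pc.eval (s : ℂ)‖ ≤ η)
    (s : ℕ) (hs : s + w + 1 < L) :
    ∑ k ∈ Finset.range (w + 2),
      ((-1 : ℤ) ^ (w + 1 - k) * ((w + 1).choose k : ℤ)) * f (s + k) = 0 := by
  set I : ℤ := ∑ k ∈ Finset.range (w + 2),
      ((-1 : ℤ) ^ (w + 1 - k) * ((w + 1).choose k : ℤ)) * f (s + k) with hI
  have hpoly := sum_choose_eval_eq_zero pc (w + 1) (Nat.lt_succ_of_le hdeg) (s : ℂ)
  have hcast : (I : ℂ) = ∑ k ∈ Finset.range (w + 2),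
      (((-1 : ℤ) ^ (w + 1 - k) * ((w + 1).choose k : ℤ) : ℤ) : ℂ) *
        ((f (s + k) : ℂ) - pc.eval ((s : ℂ) + (k : ℂ))) := by
    simp only [mul_sub, Finset.sum_sub_distrib]
    rw [hpoly, sub_zero, hI]
    push_cast
    rfl
  have hnorm : ‖(I : ℂ)‖ ≤ 2 ^ (w + 1) * η := by
    rw [hcast]
    refine (norm_sum_le _ _).trans ?_
    have hb : ∀ k ∈ Finset.range (w + 2),
        ‖(((-1 : ℤ) ^ (w + 1 - k) * ((w + 1).choose k : ℤ) : ℤ) : ℂ) *
          ((f (s + k) : ℂ) - pc.eval ((s : ℂ) + (k : ℂ)))‖ ≤ ((w + 1).choose k : ℝ) * η := by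
      intro k hk
      have hk' : k < w + 2 := Finset.mem_range.mp hk
      rw [norm_mul]
      have h1 : ‖(((-1 : ℤ) ^ (w + 1 - k) * ((w + 1).choose k : ℤ) : ℤ) : ℂ)‖ =
          ((w + 1).choose k : ℝ) := by
        push_cast
        rw [norm_mul, norm_pow, norm_neg, norm_one, one_pow, one_mul]
        simp
      rw [h1]
      refine mul_le_mul_of_nonneg_left ?_ (by positivity)
      have h2 := hclose (s + k) (by omega)
      push_cast at h2
      exact h2
    refine (Finset.sum_le_sum hb).trans ?_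
    rw [← Finset.sum_mul]
    have h3 : ∑ k ∈ Finset.range (w + 2), ((w + 1).choose k : ℝ) = 2 ^ (w + 1) := by
      have := Nat.sum_range_choose (w + 1)
      exact_mod_cast this
    rw [h3]
  have hlt : ‖(I : ℂ)‖ < 1 := lt_of_le_of_lt hnorm hη
  rw [Complex.norm_intCast] at hlt
  have : |I| < 1 := by exact_mod_cast hlt
  exact Int.abs_lt_one_iff.mp this

/-- **Agreement with the interpolant.** -/
theorem eq_interpolant (f : ℕ → ℤ) (Q0 : ℚ[X]) (w L : ℕ) (hdeg : Q0.natDegree ≤ w)
    (h0 : ∀ s ≤ w, Q0.eval (s : ℚ) = f s)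
    (hdiff : ∀ s, s + w + 1 < L → ∑ k ∈ Finset.range (w + 2),
      ((-1 : ℤ) ^ (w + 1 - k) * ((w + 1).choose k : ℤ)) * f (s + k) = 0)
    (s : ℕ) (hs : s < L) : Q0.eval (s : ℚ) = f s := by
  induction s using Nat.strong_induction_on with
  | _ s ih =>
    rcases Nat.lt_or_ge w s with hw | hw
    · obtain ⟨s', rfl⟩ : ∃ s', s = s' + (w + 1) := ⟨s - (w + 1), by omega⟩
      have hQ := sum_choose_eval_eq_zero Q0 (w + 1) (Nat.lt_succ_of_le hdeg) (s' : ℚ)
      have hf := hdiff s' (by omega)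
      have hf' : ((∑ k ∈ Finset.range (w + 2),
          ((-1 : ℤ) ^ (w + 1 - k) * ((w + 1).choose k : ℤ)) * f (s' + k) : ℤ) : ℚ) = 0 := by
        rw [hf]; rfl
      push_cast at hf'
      rw [Finset.sum_range_succ] at hQ hf'
      have hlast : ((-1 : ℤ) ^ (w + 1 - (w + 1)) * ((w + 1).choose (w + 1) : ℤ) : ℤ) = 1 := by
        simp
      have hsum : ∑ k ∈ Finset.range (w + 1),
          (((-1 : ℤ) ^ (w + 1 - k) * ((w + 1).choose k : ℤ) : ℤ) : ℚ) *
            Q0.eval ((s' : ℚ) + (k : ℚ)) =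
          ∑ k ∈ Finset.range (w + 1),
            ((-1 : ℚ) ^ (w + 1 - k) * ((w + 1).choose k : ℚ)) * (f (s' + k) : ℚ) := by
        refine Finset.sum_congr rfl fun k hk => ?_
        have hk' : k < w + 1 := Finset.mem_range.mp hk
        have := ih (s' + k) (by omega) (by omega)
        push_cast at this
        rw [this]
        push_cast
        rfl
      rw [hsum, hlast] at hQ
      simp only [Nat.sub_self, pow_zero, Nat.choose_self, Nat.cast_one, mul_one, one_mul,
        Int.cast_one] at hQ hf'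
      have e : ((s' + (w + 1) : ℕ) : ℚ) = (s' : ℚ) + ((w + 1 : ℕ) : ℚ) := by push_cast; ring
      rw [e]
      linarith
    · exact h0 s hw

end Fermat.Agent.H92
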