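import Mathlib

/-!
# Doerge-type lemma, part 1: Newton approximants of the branches

For a bivariate polynomial `G ∈ K[s][u]` and a simple root `γ` of `G(u, 0)`, there are polynomials
`U ∈ K[s]` of degree `≤ k` with `U(0) = γ` and `s^(k+1) ∣ G(U(s), s)`.
-/

set_option autoImplicit false

noncomputable section

namespace Fermat.Agent.H92

open Polynomial

section Newton

variable {K : Type*} [Field K]

theorem eval_eval_zero_eq (G : K[X][X]) (U : K[X]) :
    (G.eval U).eval 0 = (G.map (evalRingHom 0)).eval (U.eval 0) := by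
  calc (G.eval U).eval 0 = (evalRingHom 0) (G.eval₂ (RingHom.id _) U) := by
        rw [eval₂_id]; rfl
    _ = G.eval₂ ((evalRingHom 0).comp (RingHom.id _)) (evalRingHom 0 U) := hom_eval₂ _ _ _ _
    _ = (G.map (evalRingHom 0)).eval (U.eval 0) := by rw [eval_map]; rfl

/-- **Newton approximants**: a simple root `γ` of `G(u, 0)` lifts to a polynomial `U(s)` of degree
at most `k` with `G(U(s), s) ≡ 0 mod s^(k+1)`. -/
theorem exists_newton_approx (G : K[X][X]) (γ : K)
    (hγ : (G.map (evalRingHom 0)).eval γ = 0)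
    (hγ' : (G.map (evalRingHom 0)).derivative.eval γ ≠ 0) (k : ℕ) :
    ∃ U : K[X], U.eval 0 = γ ∧ U.natDegree ≤ k ∧ X ^ (k + 1) ∣ G.eval U := by
  induction k with
  | zero =>
    refine ⟨C γ, by simp, by simp, ?_⟩
    rw [zero_add, pow_one, X_dvd_iff, coeff_zero_eq_eval_zero, eval_eval_zero_eq, eval_C]
    exact hγ
  | succ k ih =>
    obtain ⟨U, hU0, hUdeg, E, hE⟩ := ih
    set g' := (G.map (evalRingHom 0)).derivative.eval γ with hg'
    set a : K := - E.eval 0 / g' with ha
    obtain ⟨κ, hκ⟩ := binomExpansion G U (C a * X ^ (k + 1))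
    refine ⟨U + C a * X ^ (k + 1), ?_, ?_, ?_⟩
    · simp [hU0]
    · refine (natDegree_add_le _ _).trans (max_le (hUdeg.trans (Nat.le_succ k)) ?_)
      exact (natDegree_C_mul_le _ _).trans (natDegree_X_pow_le _)
    · rw [hκ, hE]
      have hder : (G.derivative.eval U).eval 0 = g' := by
        rw [eval_eval_zero_eq, hU0, ← derivative_map]
      -- X ∣ E + G'.eval U * C a
      have hX : X ∣ E + G.derivative.eval U * C a := by
        rw [X_dvd_iff, coeff_zero_eq_eval_zero, eval_add, eval_mul, eval_C, hder, ha]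
        field_simp
        ring
      obtain ⟨F, hF⟩ := hX
      refine ⟨F + κ * C a ^ 2 * X ^ k, ?_⟩
      have : X ^ (k + 1) * E + G.derivative.eval U * (C a * X ^ (k + 1)) +
          κ * (C a * X ^ (k + 1)) ^ 2 =
          X ^ (k + 1) * (E + G.derivative.eval U * C a) +
            X ^ (k + 1 + 1) * (κ * C a ^ 2 * X ^ k) := by ring
      rw [this, hF]
      ring

end Newton

end Fermat.Agent.H92
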