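import Mathlib
import Fermat.Agent.H92.DoergeApprox

/-!
# Doerge-type lemma, part 2: location of the roots near `s = 0`

`G ∈ ℂ[s][u]` monic in `u`, `g = G(u, 0)` separable.  For `s` small every root `u` of `G(u, s)` is
within `C |s|^(w+1)` of one of the Newton approximants.
-/

set_option autoImplicit false

noncomputable section

namespace Fermat.Agent.H92

open Polynomial

section Eval

variable {K : Type*} [Field K]

theorem eval_eval_eq (G : K[X][X]) (U : K[X]) (s : K) :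
    (G.eval U).eval s = (G.map (evalRingHom s)).eval (U.eval s) := by
  calc (G.eval U).eval s = (evalRingHom s) (G.eval₂ (RingHom.id _) U) := by
        rw [eval₂_id]; rfl
    _ = G.eval₂ ((evalRingHom s).comp (RingHom.id _)) (evalRingHom s U) := hom_eval₂ _ _ _ _
    _ = (G.map (evalRingHom s)).eval (U.eval s) := by rw [eval_map]; rfl

/-- The specialised polynomial as an explicit sum. -/
theorem eval_map_eq_sum (G : K[X][X]) (s u : K) :
    (G.map (evalRingHom s)).eval u =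
      ∑ i ∈ Finset.range (G.natDegree + 1), (G.coeff i).eval s * u ^ i := by
  rw [eval_eq_sum_range' (Nat.lt_succ_of_le natDegree_map_le)]
  refine Finset.sum_congr rfl fun i _ => ?_
  rw [coeff_map, coe_evalRingHom]

/-- The divided difference of the specialised polynomial. -/
def divDiff (G : K[X][X]) (x y s : K) : K :=
  ∑ i ∈ Finset.range (G.natDegree + 1),
    (G.coeff i).eval s * ∑ j ∈ Finset.range i, x ^ j * y ^ (i - 1 - j)

theorem eval_sub_eval_eq (G : K[X][X]) (x y s : K) :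
    (G.map (evalRingHom s)).eval x - (G.map (evalRingHom s)).eval y =
      (x - y) * divDiff G x y s := by
  rw [eval_map_eq_sum, eval_map_eq_sum, divDiff, ← Finset.sum_sub_distrib, Finset.mul_sum]
  refine Finset.sum_congr rfl fun i _ => ?_
  rw [← mul_sub, ← geom_sum₂_mul x y i]
  ring

theorem divDiff_self_zero (G : K[X][X]) (γ : K) :
    divDiff G γ γ 0 = (G.map (evalRingHom 0)).derivative.eval γ := by
  rw [divDiff, derivative_eval, sum_over_range' _ _ (G.natDegree + 1)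
    (Nat.lt_succ_of_le natDegree_map_le)]
  · refine Finset.sum_congr rfl fun i _ => ?_
    rw [coeff_map, coe_evalRingHom]
    have : ∑ j ∈ Finset.range i, γ ^ j * γ ^ (i - 1 - j) = i * γ ^ (i - 1) := by
      rw [Finset.sum_congr rfl (g := fun _ => γ ^ (i - 1))]
      · simp
      · intro j hj
        rw [Finset.mem_range] at hj
        rw [← pow_add]
        congr 1
        omega
    rw [this]
    ring
  · intro n
    simp

end Eval

section Finite

theorem exists_pos_le_of_finset {ι : Type*} (Γ : Finset ι) (f : ι → ℝ)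
    (hf : ∀ i ∈ Γ, 0 < f i) : ∃ m, 0 < m ∧ ∀ i ∈ Γ, m ≤ f i := by
  classical
  induction Γ using Finset.induction_on with
  | empty => exact ⟨1, one_pos, fun i hi => absurd hi (Finset.notMem_empty i)⟩
  | insert a Γ ha ih =>
    obtain ⟨m, hm, hmf⟩ := ih fun i hi => hf i (Finset.mem_insert_of_mem hi)
    refine ⟨min m (f a), lt_min hm (hf a (Finset.mem_insert_self a Γ)), fun i hi => ?_⟩
    rcases Finset.mem_insert.mp hi with rfl | hi
    · exact min_le_right _ _
    · exact (min_le_left _ _).trans (hmf i hi)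

theorem exists_ge_of_finset {ι : Type*} (Γ : Finset ι) (f : ι → ℝ) :
    ∃ M, 0 ≤ M ∧ ∀ i ∈ Γ, f i ≤ M := by
  classical
  induction Γ using Finset.induction_on with
  | empty => exact ⟨0, le_refl _, fun i hi => absurd hi (Finset.notMem_empty i)⟩
  | insert a Γ ha ih =>
    obtain ⟨M, hM, hMf⟩ := ih
    refine ⟨max M (f a), le_max_of_le_left hM, fun i hi => ?_⟩
    rcases Finset.mem_insert.mp hi with rfl | hi
    · exact le_max_right _ _
    · exact (hMf i hi).trans (le_max_left _ _)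

end Finite

section Analytic

variable (G : ℂ[X][X])

theorem continuous_divDiff :
    Continuous (fun p : ℂ × ℂ × ℂ => divDiff G p.1 p.2.1 p.2.2) := by
  unfold divDiff
  refine continuous_finset_sum _ fun i _ => ?_
  refine Continuous.mul ?_ ?_
  · exact (Polynomial.continuous _).comp (continuous_snd.comp continuous_snd)
  · refine continuous_finset_sum _ fun j _ => ?_
    exact (continuous_fst.pow j).mul ((continuous_fst.comp continuous_snd).pow _)

theorem continuous_evalMap :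
    Continuous (fun p : ℂ × ℂ => (G.map (evalRingHom p.1)).eval p.2) := by
  simp_rw [eval_map_eq_sum]
  refine continuous_finset_sum _ fun i _ => ?_
  exact ((Polynomial.continuous _).comp continuous_fst).mul (continuous_snd.pow i)

/-- The roots of the specialisations at `‖s‖ ≤ 1` are uniformly bounded. -/
theorem exists_root_bound (hG : G.Monic) :
    ∃ R : ℝ, 0 ≤ R ∧ ∀ s u : ℂ, ‖s‖ ≤ 1 → (G.map (evalRingHom s)).eval u = 0 → ‖u‖ ≤ R := by
  -- bound for each coefficient on the closed unit ball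
  have hB : ∀ i : ℕ, ∃ B : ℝ, ∀ s ∈ Metric.closedBall (0 : ℂ) 1, ‖(G.coeff i).eval s‖ ≤ B :=
    fun i => (isCompact_closedBall (0 : ℂ) 1).exists_bound_of_continuousOn
      (Polynomial.continuous _).continuousOn
  choose B hB using hB
  obtain ⟨M, hM0, hM⟩ := exists_ge_of_finset (Finset.range G.natDegree) B
  refine ⟨M + 1, by linarith, fun s u hs hu => ?_⟩
  have hmonic : (G.map (evalRingHom s)).Monic := hG.map _
  have hne : G.map (evalRingHom s) ≠ 0 := hmonic.ne_zero
  have hlt := IsRoot.norm_lt_cauchyBound hne (show (G.map (evalRingHom s)).IsRoot u from hu)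
  have hcb : (cauchyBound (G.map (evalRingHom s)) : ℝ) ≤ M + 1 := by
    rw [cauchyBound, hmonic.leadingCoeff, nnnorm_one, div_one]
    push_cast
    have : ((Finset.range (G.map (evalRingHom s)).natDegree).sup
        (fun i => ‖(G.map (evalRingHom s)).coeff i‖₊) : NNReal) ≤ Real.toNNReal M := by
      refine Finset.sup_le fun i hi => ?_
      rw [hG.natDegree_map] at hi
      rw [← NNReal.coe_le_coe, coe_nnnorm, Real.coe_toNNReal M hM0, coeff_map, coe_evalRingHom]
      exact (hB i s (by simpa using hs)).trans (hM i hi)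
    have h2 : ((((Finset.range (G.map (evalRingHom s)).natDegree).sup
        (fun i => ‖(G.map (evalRingHom s)).coeff i‖₊) : NNReal)) : ℝ) ≤ M := by
      have h3 := NNReal.coe_le_coe.mpr this
      rwa [Real.coe_toNNReal M hM0] at h3
    linarith
  have h3 : ‖u‖ < (cauchyBound (G.map (evalRingHom s)) : ℝ) := by
    have := NNReal.coe_lt_coe.mpr hlt
    simpa using this
  linarith

/-- First-order location: for `s` small, every root of `G(u, s)` is close to a root of
`G(u, 0)`. -/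
theorem exists_delta_root_close (hG : G.Monic) {ε : ℝ} (hε : 0 < ε) :
    ∃ δ : ℝ, 0 < δ ∧ ∀ s u : ℂ, ‖s‖ < δ → (G.map (evalRingHom s)).eval u = 0 →
      ∃ γ : ℂ, (G.map (evalRingHom 0)).eval γ = 0 ∧ ‖u - γ‖ < ε := by
  obtain ⟨R, hR0, hR⟩ := exists_root_bound G hG
  let F : ℂ × ℂ → ℂ := fun p => (G.map (evalRingHom p.1)).eval p.2
  have hF : Continuous F := continuous_evalMap G
  let S : Set (ℂ × ℂ) := {p | ‖p.1‖ ≤ 1 ∧ ‖p.2‖ ≤ R ∧ F p = 0 ∧
    ∀ γ : ℂ, (G.map (evalRingHom 0)).eval γ = 0 → ε ≤ ‖p.2 - γ‖}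
  have hSclosed : IsClosed S := by
    have h1 : IsClosed {p : ℂ × ℂ | ‖p.1‖ ≤ 1} :=
      isClosed_le (continuous_norm.comp continuous_fst) continuous_const
    have h2 : IsClosed {p : ℂ × ℂ | ‖p.2‖ ≤ R} :=
      isClosed_le (continuous_norm.comp continuous_snd) continuous_const
    have h3 : IsClosed {p : ℂ × ℂ | F p = 0} := isClosed_eq hF continuous_const
    have h4 : IsClosed {p : ℂ × ℂ | ∀ γ : ℂ, (G.map (evalRingHom 0)).eval γ = 0 →
        ε ≤ ‖p.2 - γ‖} := by
      have : {p : ℂ × ℂ | ∀ γ : ℂ, (G.map (evalRingHom 0)).eval γ = 0 → ε ≤ ‖p.2 - γ‖} =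
          ⋂ γ : ℂ, ⋂ (_ : (G.map (evalRingHom 0)).eval γ = 0), {p : ℂ × ℂ | ε ≤ ‖p.2 - γ‖} := by
        ext p; simp
      rw [this]
      refine isClosed_iInter fun γ => isClosed_iInter fun _ => ?_
      exact isClosed_le continuous_const (continuous_norm.comp (continuous_snd.sub continuous_const))
    have hS : S = (({p : ℂ × ℂ | ‖p.1‖ ≤ 1} ∩ {p : ℂ × ℂ | ‖p.2‖ ≤ R}) ∩
        {p : ℂ × ℂ | F p = 0}) ∩ {p : ℂ × ℂ | ∀ γ : ℂ, (G.map (evalRingHom 0)).eval γ = 0 →
        ε ≤ ‖p.2 - γ‖} := by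
      ext p
      simp only [Set.mem_inter_iff, Set.mem_setOf_eq, S]
      tauto
    rw [hS]
    exact ((h1.inter h2).inter h3).inter h4
  have hSsub : S ⊆ Metric.closedBall (0 : ℂ) 1 ×ˢ Metric.closedBall (0 : ℂ) R := by
    intro p hp
    simp only [Set.mem_prod, Metric.mem_closedBall, dist_zero_right]
    exact ⟨hp.1, hp.2.1⟩
  have hScompact : IsCompact S :=
    ((isCompact_closedBall (0 : ℂ) 1).prod (isCompact_closedBall (0 : ℂ) R)).of_isClosed_subset
      hSclosed hSsub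
  rcases S.eq_empty_or_nonempty with hempty | hne
  · refine ⟨1, one_pos, fun s u hs hu => ?_⟩
    by_contra hcon
    push Not at hcon
    have : (s, u) ∈ S := ⟨hs.le, hR s u hs.le hu, hu, hcon⟩
    rw [hempty] at this
    exact this
  · obtain ⟨p0, hp0S, hp0min⟩ := hScompact.exists_isMinOn hne
      (continuous_norm.comp continuous_fst).continuousOn
    have hpos : 0 < ‖p0.1‖ := by
      rw [norm_pos_iff]
      intro h0
      have h1 : (G.map (evalRingHom 0)).eval p0.2 = 0 := by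
        have := hp0S.2.2.1
        simp only [F] at this
        rwa [h0] at this
      have h2 := hp0S.2.2.2 p0.2 h1
      rw [sub_self, norm_zero] at h2
      linarith
    refine ⟨min ‖p0.1‖ 1, lt_min hpos one_pos, fun s u hs hu => ?_⟩
    by_contra hcon
    push Not at hcon
    have hs1 : ‖s‖ ≤ 1 := (hs.trans_le (min_le_right _ _)).le
    have hmem : (s, u) ∈ S := ⟨hs1, hR s u hs1 hu, hu, hcon⟩
    have h3 : ‖p0.1‖ ≤ ‖s‖ := hp0min hmem
    have h4 : ‖s‖ < ‖p0.1‖ := hs.trans_le (min_le_left _ _)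
    linarith

/-- Second-order location near one simple root `γ` of `G(u, 0)`, for an approximant `U`. -/
theorem exists_local_bound (γ : ℂ)
    (hγ' : (G.map (evalRingHom 0)).derivative.eval γ ≠ 0)
    (U E : ℂ[X]) (w : ℕ) (hU0 : U.eval 0 = γ) (hE : G.eval U = X ^ (w + 1) * E) :
    ∃ C δ ε : ℝ, 0 ≤ C ∧ 0 < δ ∧ 0 < ε ∧ ∀ s u : ℂ, ‖s‖ < δ → ‖u - γ‖ < ε →
      (G.map (evalRingHom s)).eval u = 0 → ‖u - U.eval s‖ ≤ C * ‖s‖ ^ (w + 1) := by
  set g' := (G.map (evalRingHom 0)).derivative.eval γ with hg'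
  have hg'pos : 0 < ‖g'‖ := norm_pos_iff.mpr hγ'
  have hκ : 0 < ‖g'‖ / 2 := by positivity
  have hcont := (continuous_divDiff G).continuousAt (x := (γ, γ, (0 : ℂ)))
  have hval : divDiff G γ γ 0 = g' := divDiff_self_zero G γ
  rw [Metric.continuousAt_iff] at hcont
  obtain ⟨ε, hε, hεb⟩ := hcont (‖g'‖ / 2) hκ
  have hUc := (Polynomial.continuous U).continuousAt (x := (0 : ℂ))
  rw [Metric.continuousAt_iff] at hUc
  obtain ⟨δ1, hδ1, hδ1b⟩ := hUc ε hε
  obtain ⟨K, hK⟩ := (isCompact_closedBall (0 : ℂ) 1).exists_bound_of_continuousOn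
    (Polynomial.continuous E).continuousOn
  have hδ : 0 < min δ1 (min ε 1) := lt_min hδ1 (lt_min hε one_pos)
  refine ⟨max K 0 / (‖g'‖ / 2), min δ1 (min ε 1), ε, by positivity, hδ, hε,
    fun s u hs hu hroot => ?_⟩
  have hs1 : ‖s‖ < δ1 := hs.trans_le (min_le_left _ _)
  have hs2 : ‖s‖ < ε := hs.trans_le ((min_le_right _ _).trans (min_le_left _ _))
  have hs3 : ‖s‖ ≤ 1 := (hs.trans_le ((min_le_right _ _).trans (min_le_right _ _))).le
  have hUs : ‖U.eval s - γ‖ < ε := by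
    have := hδ1b (x := s) (by rwa [dist_zero_right])
    rwa [dist_eq_norm, hU0] at this
  -- the divided difference is bounded below
  have hdist : dist ((u, U.eval s, s) : ℂ × ℂ × ℂ) (γ, γ, 0) < ε := by
    rw [Prod.dist_eq, Prod.dist_eq]
    simp only [dist_eq_norm, sub_zero]
    exact max_lt hu (max_lt hUs hs2)
  have hΦ := hεb hdist
  rw [dist_eq_norm] at hΦ
  simp only [hval] at hΦ
  have hΦlow : ‖g'‖ / 2 ≤ ‖divDiff G u (U.eval s) s‖ := by
    have h1 : ‖g'‖ ≤ ‖divDiff G u (U.eval s) s‖ + ‖divDiff G u (U.eval s) s - g'‖ := by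
      have := norm_sub_le (divDiff G u (U.eval s) s) (divDiff G u (U.eval s) s - g')
      rwa [sub_sub_cancel] at this
    linarith
  -- the key identity
  have hkey : (u - U.eval s) * divDiff G u (U.eval s) s = - (s ^ (w + 1) * E.eval s) := by
    rw [← eval_sub_eval_eq, hroot, ← eval_eval_eq, hE, eval_mul, eval_pow, eval_X]
    ring
  have hnorm : ‖u - U.eval s‖ * ‖divDiff G u (U.eval s) s‖ = ‖s‖ ^ (w + 1) * ‖E.eval s‖ := by
    rw [← norm_mul, hkey, norm_neg, norm_mul, norm_pow]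
  have hEs : ‖E.eval s‖ ≤ max K 0 :=
    (hK s (by simpa using hs3)).trans (le_max_left _ _)
  have h5 : ‖u - U.eval s‖ * (‖g'‖ / 2) ≤ ‖s‖ ^ (w + 1) * max K 0 := by
    calc ‖u - U.eval s‖ * (‖g'‖ / 2) ≤ ‖u - U.eval s‖ * ‖divDiff G u (U.eval s) s‖ :=
          mul_le_mul_of_nonneg_left hΦlow (norm_nonneg _)
      _ = ‖s‖ ^ (w + 1) * ‖E.eval s‖ := hnorm
      _ ≤ ‖s‖ ^ (w + 1) * max K 0 := mul_le_mul_of_nonneg_left hEs (by positivity)
  rw [div_mul_eq_mul_div, le_div_iff₀ hκ]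
  linarith

/-- **Location of the roots near `s = 0`**: there are polynomials `U γ` of degree `≤ w` (one for
each root `γ` of `G(u, 0)`) such that for `s` small every root `u` of `G(u, s)` satisfies
`‖u - U γ (s)‖ ≤ C ‖s‖^(w+1)` for some `γ`. -/
theorem exists_root_approx_bound (hG : G.Monic)
    (hsep : (G.map (evalRingHom 0)).Separable) (w : ℕ) :
    ∃ (U : ℂ → ℂ[X]) (C δ : ℝ), 0 ≤ C ∧ 0 < δ ∧ (∀ γ, (U γ).natDegree ≤ w) ∧
      ∀ s u : ℂ, ‖s‖ < δ → (G.map (evalRingHom s)).eval u = 0 →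
        ∃ γ, (G.map (evalRingHom 0)).eval γ = 0 ∧ ‖u - (U γ).eval s‖ ≤ C * ‖s‖ ^ (w + 1) := by
  classical
  set g := G.map (evalRingHom 0) with hg
  have hgne : g ≠ 0 := (hG.map _).ne_zero
  have hder : ∀ γ, g.eval γ = 0 → g.derivative.eval γ ≠ 0 := fun γ hγ =>
    hsep.eval₂_derivative_ne_zero (RingHom.id ℂ) hγ
  have key : ∀ γ, ∃ U E : ℂ[X], U.natDegree ≤ w ∧ (g.eval γ = 0 →
      U.eval 0 = γ ∧ G.eval U = X ^ (w + 1) * E) := by
    intro γ
    by_cases hγ : g.eval γ = 0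
    · obtain ⟨U, hU0, hUdeg, E, hE⟩ := exists_newton_approx G γ hγ (hder γ hγ) w
      exact ⟨U, E, hUdeg, fun _ => ⟨hU0, hE⟩⟩
    · exact ⟨0, 0, by simp, fun h => absurd h hγ⟩
  choose U E hUdeg hUE using key
  have loc : ∀ γ, ∃ C δ ε : ℝ, 0 ≤ C ∧ 0 < δ ∧ 0 < ε ∧ (g.eval γ = 0 →
      ∀ s u : ℂ, ‖s‖ < δ → ‖u - γ‖ < ε →
        (G.map (evalRingHom s)).eval u = 0 → ‖u - (U γ).eval s‖ ≤ C * ‖s‖ ^ (w + 1)) := by
    intro γ
    by_cases hγ : g.eval γ = 0
    · obtain ⟨C, δ, ε, hC, hδ, hε, h⟩ :=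
        exists_local_bound G γ (hder γ hγ) (U γ) (E γ) w (hUE γ hγ).1 (hUE γ hγ).2
      exact ⟨C, δ, ε, hC, hδ, hε, fun _ => h⟩
    · exact ⟨0, 1, 1, le_refl _, one_pos, one_pos, fun h => absurd h hγ⟩
  choose Cf δf εf hCf hδf hεf hloc using loc
  set Γ := g.roots.toFinset with hΓ
  have hmemΓ : ∀ γ, γ ∈ Γ ↔ g.eval γ = 0 := by
    intro γ
    rw [hΓ, Multiset.mem_toFinset, mem_roots hgne, IsRoot.def]
  obtain ⟨ε, hε, hεle⟩ := exists_pos_le_of_finset Γ εf (fun γ _ => hεf γ)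
  obtain ⟨δ0, hδ0, hδ0le⟩ := exists_pos_le_of_finset Γ δf (fun γ _ => hδf γ)
  obtain ⟨C, hC, hCle⟩ := exists_ge_of_finset Γ Cf
  obtain ⟨δ1, hδ1, hclose⟩ := exists_delta_root_close G hG hε
  refine ⟨U, C, min δ0 δ1, hC, lt_min hδ0 hδ1, hUdeg, fun s u hs hroot => ?_⟩
  obtain ⟨γ, hγ, hγu⟩ := hclose s u (hs.trans_le (min_le_right _ _)) hroot
  have hγΓ : γ ∈ Γ := (hmemΓ γ).mpr hγ
  refine ⟨γ, hγ, ?_⟩
  have h1 := hloc γ hγ s u ((hs.trans_le (min_le_left _ _)).trans_le (hδ0le γ hγΓ))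
    (hγu.trans_le (hεle γ hγΓ)) hroot
  exact h1.trans (mul_le_mul_of_nonneg_right (hCle γ hγΓ) (by positivity))

end Analytic

end Fermat.Agent.H92
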