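import Mathlib
import Fermat.Agent.H92.DoergeLocal

/-!
# Doerge-type lemma, part 3: location of the roots near `t = ∞`

`G ∈ ℂ[t][z]` monic of degree `d` in `z`, weighted-homogeneous of weight `w` at infinity
(`deg_t (coeff of z^i) ≤ w (d - i)`), with separable leading form.  Then for `n` large every root
`ζ` of `G(z, n)` satisfies `‖ζ - P(n)‖ ≤ C / n` for one of finitely many polynomials `P` of degree
`≤ w`.
-/

set_option autoImplicit false

noncomputable section

namespace Fermat.Agent.H92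

open Polynomial

section Reflect

variable {K : Type*} [Field K]

/-- The leading form of `G` for the weight `w`. -/
def leadingForm (G : K[X][X]) (d w : ℕ) : K[X] :=
  ∑ i ∈ Finset.range (d + 1), C ((G.coeff i).coeff (w * (d - i))) * X ^ i

/-- The polynomial `Ĝ(u, s) = s^(w d) G(u / s^w, 1 / s)`. -/
def reflectAt (G : K[X][X]) (d w : ℕ) : K[X][X] :=
  ∑ i ∈ Finset.range (d + 1), C (reflect (w * (d - i)) (G.coeff i)) * X ^ i

theorem coeff_reflectAt (G : K[X][X]) (d w i : ℕ) :
    (reflectAt G d w).coeff i = if i ≤ d then reflect (w * (d - i)) (G.coeff i) else 0 := by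
  rw [reflectAt, finset_sum_coeff]
  simp only [coeff_C_mul, coeff_X_pow]
  split_ifs with h
  · rw [Finset.sum_eq_single i]
    · simp
    · intro j _ hj
      simp [Ne.symm hj]
    · intro hi
      exact absurd (Finset.mem_range.mpr (Nat.lt_succ_of_le h)) hi
  · refine Finset.sum_eq_zero fun j hj => ?_
    have : i ≠ j := by
      rintro rfl
      exact h (Nat.lt_succ_iff.mp (Finset.mem_range.mp hj))
    simp [this]

theorem natDegree_reflectAt_le (G : K[X][X]) (d w : ℕ) : (reflectAt G d w).natDegree ≤ d := by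
  rw [natDegree_le_iff_coeff_eq_zero]
  intro i hi
  rw [coeff_reflectAt, if_neg (not_le.mpr hi)]

theorem reflectAt_monic (G : K[X][X]) (d w : ℕ) (hG : G.Monic) (hd : G.natDegree = d) :
    (reflectAt G d w).Monic := by
  refine monic_of_natDegree_le_of_coeff_eq_one d (natDegree_reflectAt_le G d w) ?_
  rw [coeff_reflectAt, if_pos le_rfl, Nat.sub_self, Nat.mul_zero]
  have : G.coeff d = 1 := by rw [← hd]; exact hG.coeff_natDegree
  rw [this]
  simp

theorem reflectAt_map_zero (G : K[X][X]) (d w : ℕ) :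
    (reflectAt G d w).map (evalRingHom 0) = leadingForm G d w := by
  rw [reflectAt, leadingForm, Polynomial.map_sum]
  refine Finset.sum_congr rfl fun i _ => ?_
  rw [Polynomial.map_mul, Polynomial.map_pow, map_X, map_C, coe_evalRingHom,
    ← coeff_zero_eq_eval_zero, coeff_reflect, revAt_zero]

theorem eval_reflect_mul_pow (p : K[X]) (N : ℕ) (hp : p.natDegree ≤ N) {t : K} (ht : t ≠ 0) :
    (reflect N p).eval t⁻¹ * t ^ N = p.eval t := by
  letI := invertibleOfNonzero ht
  have := eval₂_reflect_mul_pow (RingHom.id K) t N p hp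
  rw [invOf_eq_inv] at this
  exact this

theorem eval_map_eq_sum' (G : K[X][X]) (n : ℕ) (hn : G.natDegree < n) (s u : K) :
    (G.map (evalRingHom s)).eval u =
      ∑ i ∈ Finset.range n, (G.coeff i).eval s * u ^ i := by
  rw [eval_eq_sum_range' (lt_of_le_of_lt natDegree_map_le hn)]
  refine Finset.sum_congr rfl fun i _ => ?_
  rw [coeff_map, coe_evalRingHom]

/-- The specialisation of `G` at `t` in terms of the specialisation of `Ĝ` at `1 / t`. -/
theorem eval_map_eq_reflectAt (G : K[X][X]) (d w : ℕ) (hd : G.natDegree = d)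
    (hw : ∀ i ≤ d, (G.coeff i).natDegree ≤ w * (d - i)) {t : K} (ht : t ≠ 0) (ζ : K) :
    (G.map (evalRingHom t)).eval ζ =
      t ^ (w * d) * ((reflectAt G d w).map (evalRingHom t⁻¹)).eval (ζ / t ^ w) := by
  rw [eval_map_eq_sum' G (d + 1) (by omega),
    eval_map_eq_sum' (reflectAt G d w) (d + 1)
      (Nat.lt_succ_of_le (natDegree_reflectAt_le G d w)), Finset.mul_sum]
  refine Finset.sum_congr rfl fun i hi => ?_
  have hi' : i ≤ d := Nat.lt_succ_iff.mp (Finset.mem_range.mp hi)
  rw [coeff_reflectAt, if_pos hi', ← eval_reflect_mul_pow (G.coeff i) _ (hw i hi') ht]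
  have h1 : w * d = w * (d - i) + w * i := by
    rw [← Nat.mul_add, Nat.sub_add_cancel hi']
  rw [h1, pow_add, div_pow, ← pow_mul]
  have h2 : t ^ (w * i) ≠ 0 := pow_ne_zero _ ht
  field_simp

theorem eval_reflect_eq (p : K[X]) (N : ℕ) (hp : p.natDegree ≤ N) {t : K} (ht : t ≠ 0) :
    (reflect N p).eval t = p.eval t⁻¹ * t ^ N := by
  have h := eval_reflect_mul_pow p N hp (inv_ne_zero ht)
  rw [inv_inv] at h
  rw [← h, mul_assoc, ← mul_pow, inv_mul_cancel₀ ht, one_pow, mul_one]

end Reflect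

section Infinity

/-- **Location of the roots near `t = ∞`.** -/
theorem exists_root_approx_at_infinity (G : ℂ[X][X]) (d w : ℕ) (hG : G.Monic)
    (hd : G.natDegree = d) (hw : ∀ i ≤ d, (G.coeff i).natDegree ≤ w * (d - i))
    (hsep : (leadingForm G d w).Separable) :
    ∃ (Γ : Finset ℂ) (P : ℂ → ℂ[X]) (C : ℝ) (N0 : ℕ), 0 ≤ C ∧ 0 < N0 ∧
      (∀ γ, (P γ).natDegree ≤ w) ∧
      ∀ n : ℕ, N0 ≤ n → ∀ ζ : ℂ, (G.map (evalRingHom (n : ℂ))).eval ζ = 0 →
        ∃ γ ∈ Γ, ‖ζ - (P γ).eval (n : ℂ)‖ ≤ C / n := by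
  classical
  have hmonic := reflectAt_monic G d w hG hd
  have hsep' : ((reflectAt G d w).map (evalRingHom 0)).Separable := by
    rw [reflectAt_map_zero]; exact hsep
  obtain ⟨U, C, δ, hC, hδ, hUdeg, hU⟩ := exists_root_approx_bound (reflectAt G d w) hmonic hsep' w
  obtain ⟨N1, hN1⟩ := exists_nat_gt (1 / δ)
  have hlf : leadingForm G d w ≠ 0 := by
    rw [← reflectAt_map_zero]
    exact (hmonic.map _).ne_zero
  refine ⟨(leadingForm G d w).roots.toFinset, fun γ => reflect w (U γ), C, N1 + 1, hC,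
    Nat.succ_pos _, fun γ => ?_, fun n hn ζ hζ => ?_⟩
  · exact natDegree_reflect_le.trans (max_le le_rfl (hUdeg γ))
  · have hn1 : (1 : ℝ) ≤ n := by
      have : 1 ≤ n := (Nat.succ_le_succ (Nat.zero_le N1)).trans hn
      exact_mod_cast this
    have hnpos : (0 : ℝ) < n := by linarith
    have ht : (n : ℂ) ≠ 0 := by
      have : n ≠ 0 := by
        rintro rfl
        simp at hn1
        linarith
      exact_mod_cast this
    have hnorm_t : ‖(n : ℂ)‖ = n := by simp
    have hs : ‖((n : ℂ))⁻¹‖ < δ := by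
      rw [norm_inv, hnorm_t]
      have h1 : (1 : ℝ) / δ < n := by
        have : (N1 : ℝ) < n := by
          have : N1 < n := Nat.lt_of_succ_le hn
          exact_mod_cast this
        linarith
      rw [inv_lt_comm₀ hnpos hδ]
      rw [one_div] at h1
      exact h1
    rw [eval_map_eq_reflectAt G d w hd hw ht] at hζ
    have hroot : ((reflectAt G d w).map (evalRingHom ((n : ℂ))⁻¹)).eval (ζ / (n : ℂ) ^ w) = 0 := by
      rcases mul_eq_zero.mp hζ with h | h
      · exact absurd h (pow_ne_zero _ ht)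
      · exact h
    obtain ⟨γ, hγ, hb⟩ := hU _ _ hs hroot
    refine ⟨γ, ?_, ?_⟩
    · rw [Multiset.mem_toFinset, mem_roots hlf, IsRoot.def, ← reflectAt_map_zero]
      exact hγ
    · rw [eval_reflect_eq (U γ) w (hUdeg γ) ht]
      have h1 : ζ - (U γ).eval ((n : ℂ))⁻¹ * (n : ℂ) ^ w =
          (ζ / (n : ℂ) ^ w - (U γ).eval ((n : ℂ))⁻¹) * (n : ℂ) ^ w := by
        have : (n : ℂ) ^ w ≠ 0 := pow_ne_zero _ ht
        field_simp
      rw [h1, norm_mul, norm_pow, hnorm_t]
      rw [norm_inv, hnorm_t] at hb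
      calc ‖ζ / (n : ℂ) ^ w - (U γ).eval ((n : ℂ))⁻¹‖ * (n : ℝ) ^ w
          ≤ (C * ((n : ℝ))⁻¹ ^ (w + 1)) * (n : ℝ) ^ w :=
            mul_le_mul_of_nonneg_right hb (by positivity)
        _ = C / n := by
            rw [pow_succ, inv_pow]
            field_simp

end Infinity

end Fermat.Agent.H92
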