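import Mathlib
import Fermat.Agent.H92.DoergeInfinity
import Fermat.Agent.H92.DoergeDenom
import Fermat.Agent.H92.DoergeDiff

/-!
# A Doerge-type lemma (Hilbert irreducibility for rational roots)

`G ∈ ℚ[t][z]` monic of degree `d` in `z`, of weight `w` at infinity with separable leading form,
without a root in `ℚ[t]`.  Then every arithmetic progression `M ℤ` contains arbitrarily large `n`
such that `G(z, n)` has no rational root.

The proof is elementary: polynomial approximation of the branches at infinity (Newton), bounded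
denominators, van der Waerden's theorem (Hales-Jewett in Mathlib) and finite differences.
-/

set_option autoImplicit false

noncomputable section

namespace Fermat.Agent.H92

open Polynomial

theorem natDegree_eval_le_of_weights (G : ℚ[X][X]) (d w : ℕ) (hd : G.natDegree = d)
    (hw : ∀ i ≤ d, (G.coeff i).natDegree ≤ w * (d - i)) (Q : ℚ[X]) (hQ : Q.natDegree ≤ w) :
    (G.eval Q).natDegree ≤ w * d := by
  rw [eval_eq_sum_range, hd]
  refine natDegree_sum_le_of_forall_le _ _ fun i hi => ?_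
  have hi' : i ≤ d := Nat.lt_succ_iff.mp (Finset.mem_range.mp hi)
  calc (G.coeff i * Q ^ i).natDegree ≤ (G.coeff i).natDegree + (Q ^ i).natDegree :=
        natDegree_mul_le
    _ ≤ w * (d - i) + i * w :=
        add_le_add (hw i hi') (natDegree_pow_le.trans (Nat.mul_le_mul_left _ hQ))
    _ = w * d := by
        rw [Nat.mul_comm i w, ← Nat.mul_add, Nat.sub_add_cancel hi']

theorem eval_map_complex (G : ℚ[X][X]) (t z : ℚ) :
    ((G.map (mapRingHom (algebraMap ℚ ℂ))).map (evalRingHom ((t : ℚ) : ℂ))).eval ((z : ℚ) : ℂ) =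
      (((G.map (evalRingHom t)).eval z : ℚ) : ℂ) := by
  have hdeg : (G.map (mapRingHom (algebraMap ℚ ℂ))).natDegree < G.natDegree + 1 :=
    Nat.lt_succ_of_le natDegree_map_le
  rw [eval_map_eq_sum' _ (G.natDegree + 1) hdeg, eval_map_eq_sum' G (G.natDegree + 1)
    (Nat.lt_succ_self _)]
  push_cast
  refine Finset.sum_congr rfl fun i _ => ?_
  rw [coeff_map, coe_mapRingHom, eval_map]
  have := eval₂_at_apply (p := G.coeff i) (algebraMap ℚ ℂ) t
  simp only [eq_ratCast] at this
  rw [this]

/-- **Doerge-type lemma.** -/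
theorem exists_specialization_no_rat_root (G : ℚ[X][X]) (d w : ℕ) (hG : G.Monic)
    (hd : G.natDegree = d) (hw : ∀ i ≤ d, (G.coeff i).natDegree ≤ w * (d - i))
    (hsep : (leadingForm G d w).Separable)
    (hnoroot : ∀ Q : ℚ[X], G.eval Q ≠ 0) (M : ℕ) (hM : 0 < M) (T : ℕ) :
    ∃ n : ℕ, T ≤ n ∧ M ∣ n ∧ ∀ z : ℚ, (G.map (evalRingHom (n : ℚ))).eval z ≠ 0 := by
  classical
  by_contra hcon
  push Not at hcon
  -- complexification
  set Gc : ℂ[X][X] := G.map (mapRingHom (algebraMap ℚ ℂ)) with hGcdef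
  have hGc : Gc.Monic := hG.map _
  have hGcd : Gc.natDegree = d := by rw [hGcdef, hG.natDegree_map, hd]
  have hGcw : ∀ i ≤ d, (Gc.coeff i).natDegree ≤ w * (d - i) := fun i hi => by
    rw [hGcdef, coeff_map, coe_mapRingHom]
    exact natDegree_map_le.trans (hw i hi)
  have hlead : leadingForm Gc d w = (leadingForm G d w).map (algebraMap ℚ ℂ) := by
    rw [leadingForm, leadingForm, Polynomial.map_sum]
    refine Finset.sum_congr rfl fun i _ => ?_
    rw [Polynomial.map_mul, Polynomial.map_pow, map_X, map_C, hGcdef, coeff_map,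
      coe_mapRingHom, coeff_map]
  have hsepc : (leadingForm Gc d w).Separable := by
    rw [hlead]; exact hsep.map
  obtain ⟨Γ, P, Cb, N0, hC, hN0, hPdeg, hroot⟩ :=
    exists_root_approx_at_infinity Gc d w hGc hGcd hGcw hsepc
  obtain ⟨D0, hD0, hden⟩ := exists_denominator G hG
  -- the starting point of the progression
  obtain ⟨B, hB⟩ := exists_nat_gt (2 ^ (w + 1) * (D0 * Cb))
  set T' : ℕ := M * (T + N0 + B + 1) with hT'
  have hT'ge : T + N0 + B + 1 ≤ T' := Nat.le_mul_of_pos_left _ hM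
  have hT'pos : 0 < T' := by omega
  -- choice of roots and colours
  have hex : ∀ m : ℕ, ∃ z : ℚ, ∃ γ ∈ Γ,
      (G.map (evalRingHom ((T' + M * m : ℕ) : ℚ))).eval z = 0 ∧
      ‖((z : ℚ) : ℂ) - (P γ).eval ((T' + M * m : ℕ) : ℂ)‖ ≤ Cb / ((T' + M * m : ℕ) : ℝ) := by
    intro m
    obtain ⟨z, hz⟩ := hcon (T' + M * m) (by omega)
      (dvd_add (dvd_mul_right _ _) (dvd_mul_right _ _))
    have hzc : (Gc.map (evalRingHom ((T' + M * m : ℕ) : ℂ))).eval ((z : ℚ) : ℂ) = 0 := by
      have := eval_map_complex G ((T' + M * m : ℕ) : ℚ) z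
      rw [hz] at this
      simpa using this
    obtain ⟨γ, hγ, hb⟩ := hroot (T' + M * m) (by omega) _ hzc
    exact ⟨z, γ, hγ, hz, hb⟩
  choose zf γf hγf hzf hbf using hex
  -- van der Waerden
  let col : ℕ → Γ := fun m => ⟨γf m, hγf m⟩
  set L : ℕ := w * d + w + 2 with hL
  obtain ⟨a, ha, b, c, hc⟩ := Combinatorics.exists_mono_homothetic_copy (Finset.range L) col
  have hcol : ∀ s < L, γf (a * s + b) = (c : ℂ) := by
    intro s hs
    have := hc s (Finset.mem_range.mpr hs)
    rw [smul_eq_mul] at this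
    exact congrArg Subtype.val this
  -- the integer sequence
  have hy : ∀ s : ℕ, ∃ y : ℤ, (y : ℚ) = D0 * zf (a * s + b) := fun s => hden _ _ (hzf _)
  choose f hf using hy
  set n0 : ℕ := T' + M * b with hn0
  set step : ℕ := M * a with hstep
  have hsteppos : 0 < step := Nat.mul_pos hM ha
  have hn : ∀ s, T' + M * (a * s + b) = n0 + step * s := by
    intro s
    rw [hn0, hstep]
    ring
  -- the complex polynomial approximating `f`
  set lin : ℂ[X] := C (n0 : ℂ) + C (step : ℂ) * X with hlin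
  set pc : ℂ[X] := C (D0 : ℂ) * (P c).comp lin with hpc
  have hlindeg : lin.natDegree ≤ 1 := by
    rw [hlin]
    refine (natDegree_add_le _ _).trans (max_le (by simp) ?_)
    exact (natDegree_C_mul_le _ _).trans natDegree_X_le
  have hpcdeg : pc.natDegree ≤ w := by
    rw [hpc]
    refine (natDegree_C_mul_le _ _).trans ?_
    refine natDegree_comp_le.trans ?_
    calc (P c).natDegree * lin.natDegree ≤ w * 1 := Nat.mul_le_mul (hPdeg c) hlindeg
      _ = w := Nat.mul_one w
  have hpceval : ∀ s : ℕ, pc.eval (s : ℂ) = D0 * (P c).eval ((n0 + step * s : ℕ) : ℂ) := by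
    intro s
    rw [hpc, hlin, eval_mul, eval_C, eval_comp]
    simp
  set η : ℝ := D0 * Cb / T' with hη
  have hT'R : (0 : ℝ) < T' := by exact_mod_cast hT'pos
  have hηlt : 2 ^ (w + 1) * η < 1 := by
    rw [hη, ← mul_div_assoc, div_lt_one hT'R]
    have h1 : (B : ℝ) < T' := by
      have : B < T' := by omega
      exact_mod_cast this
    linarith
  have hclose : ∀ s < L, ‖(f s : ℂ) - pc.eval (s : ℂ)‖ ≤ η := by
    intro s hs
    have h1 := hbf (a * s + b)
    rw [hcol s hs, hn] at h1
    have h2 : (f s : ℂ) = (D0 : ℂ) * ((zf (a * s + b) : ℚ) : ℂ) := by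
      have := congrArg (fun x : ℚ => (x : ℂ)) (hf s)
      simpa using this
    rw [h2, hpceval, ← mul_sub, norm_mul]
    have h3 : ‖(D0 : ℂ)‖ = D0 := by simp
    rw [h3, hη, mul_div_assoc]
    refine mul_le_mul_of_nonneg_left ?_ (by positivity)
    refine h1.trans ?_
    have h4 : (T' : ℝ) ≤ ((n0 + step * s : ℕ) : ℝ) := by
      have : T' ≤ n0 + step * s := by rw [hn0]; omega
      exact_mod_cast this
    exact div_le_div_of_nonneg_left hC hT'R h4
  have hdiff := fwdDiff_eq_zero_of_close f pc w L η hpcdeg hηlt hclose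
  -- the interpolant
  set Q0 : ℚ[X] := Lagrange.interpolate (Finset.range (w + 1)) (fun i : ℕ => (i : ℚ))
    (fun i : ℕ => (f i : ℚ)) with hQ0
  have hinjOn : Set.InjOn (fun i : ℕ => (i : ℚ)) (Finset.range (w + 1) : Set ℕ) :=
    fun x _ y _ hxy => by
      have h : (x : ℚ) = (y : ℚ) := hxy
      exact_mod_cast h
  have hQ0deg : Q0.natDegree ≤ w := by
    have h1 := Lagrange.degree_interpolate_lt (fun i : ℕ => (f i : ℚ)) hinjOn
    rw [Finset.card_range] at h1
    by_cases hz : Q0 = 0
    · rw [hz]; simp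
    · have h2 := (natDegree_lt_iff_degree_lt hz).mpr h1
      omega
  have hQ0node : ∀ s ≤ w, Q0.eval (s : ℚ) = f s := by
    intro s hs
    exact Lagrange.eval_interpolate_at_node (fun i : ℕ => (f i : ℚ)) hinjOn
      (Finset.mem_range.mpr (Nat.lt_succ_of_le hs))
  have hQ0all : ∀ s < L, Q0.eval (s : ℚ) = f s :=
    fun s hs => eq_interpolant f Q0 w L hQ0deg hQ0node hdiff s hs
  -- the polynomial root
  set linQ : ℚ[X] := C (1 / (step : ℚ)) * (X - C (n0 : ℚ)) with hlinQ
  set Q : ℚ[X] := C (1 / (D0 : ℚ)) * Q0.comp linQ with hQ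
  have hlinQdeg : linQ.natDegree ≤ 1 := by
    rw [hlinQ]
    refine (natDegree_C_mul_le _ _).trans ?_
    exact (natDegree_sub_le _ _).trans (max_le natDegree_X_le (by simp))
  have hQdeg : Q.natDegree ≤ w := by
    rw [hQ]
    refine (natDegree_C_mul_le _ _).trans ?_
    refine natDegree_comp_le.trans ?_
    calc Q0.natDegree * linQ.natDegree ≤ w * 1 := Nat.mul_le_mul hQ0deg hlinQdeg
      _ = w := Nat.mul_one w
  have hstepQ : (step : ℚ) ≠ 0 := by
    have : step ≠ 0 := hsteppos.ne'
    exact_mod_cast this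
  have hD0Q : (D0 : ℚ) ≠ 0 := by
    have : D0 ≠ 0 := hD0.ne'
    exact_mod_cast this
  have hQeval : ∀ s < L, Q.eval ((n0 + step * s : ℕ) : ℚ) = zf (a * s + b) := by
    intro s hs
    rw [hQ, hlinQ, eval_mul, eval_C, eval_comp, eval_mul, eval_C, eval_sub, eval_X, eval_C]
    have h1 : 1 / (step : ℚ) * (((n0 + step * s : ℕ) : ℚ) - (n0 : ℚ)) = (s : ℚ) := by
      push_cast
      field_simp
      ring
    rw [h1, hQ0all s hs, hf s]
    field_simp
  have hvanish : ∀ s : Fin L, (G.eval Q).eval ((n0 + step * (s : ℕ) : ℕ) : ℚ) = 0 := by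
    intro s
    rw [eval_eval_eq, hQeval s s.2, ← hn]
    exact hzf _
  have hinj : Function.Injective (fun s : Fin L => ((n0 + step * (s : ℕ) : ℕ) : ℚ)) := by
    intro s s' hss
    simp only [Nat.cast_inj] at hss
    have h1 : step * (s : ℕ) = step * (s' : ℕ) := Nat.add_left_cancel hss
    exact Fin.ext (Nat.eq_of_mul_eq_mul_left hsteppos h1)
  have hdegG := natDegree_eval_le_of_weights G d w hd hw Q hQdeg
  have hzero : G.eval Q = 0 := by
    refine eq_zero_of_natDegree_lt_card_of_eval_eq_zero (G.eval Q) hinj hvanish ?_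
    rw [Fintype.card_fin, hL]
    omega
  exact hnoroot Q hzero

end Fermat.Agent.H92
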