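import Fermat.Agent.H92.S13WP4Short
import Fermat.Agent.H46.FreyTransfer
import Fermat.Agent.H71.NodeValQbar
import Fermat.Agent.H4.IntVal

set_option autoImplicit false

/-!
# S13 / WP4: inertia at an odd prime acts trivially on `E[p]` modulo the kernel of reduction

For the Frey curve `E` of a Frey package `P`, a valuation subring `A` of `AlgebraicClosure ℚ`
lying over an odd prime `q` (`q = P.p` allowed), `σ` in the inertia group of `A` and a
`P.p`-torsion point `Q`, the point `σ • Q - Q` is `0` or has non-integral `x`-coordinate.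
-/

namespace Fermat.Agent.H92

open WeierstrassCurve WeierstrassCurve.Affine WeierstrassCurve.Affine.Point
open Fermat.Agent.H46

section transport

variable {F : Type*} [Field F] {L : Type*} [Field L] [Algebra F L] [DecidableEq L]

/-- Membership in the kernel of reduction transfers back along the change of variables
`(x, y) ↦ (4 x - r, 4 (2 y + a₁ x + a₃))` when `r` is integral. -/
theorem inKerRed_of_toShort (A : ValuationSubring L) (W : WeierstrassCurve.Affine F) (r : F)
    (h2 : (2 : L) ≠ 0) {W' : WeierstrassCurve.Affine F} (h : shortOf W r = W')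
    (hr : algebraMap F L r ∈ A) (D : (W.baseChange L).Point)
    (hD : InKerRed A (toShortEquivOfEq W r h2 h D)) : InKerRed A D := by
  rcases D with _ | ⟨x, y, hxy⟩
  · exact Or.inl rfl
  · refine Or.inr ⟨x, y, hxy, rfl, ?_⟩
    obtain ⟨h', e⟩ := toShortEquivOfEq_some W r h2 h hxy
    rw [e] at hD
    rcases hD with h0 | ⟨x', y', h'', heq, hx'⟩
    · exact absurd h0 (Point.some_ne_zero h')
    · have hx : x' = 4 * x - algebraMap F L r := by
        have := heq
        simp only [Point.some.injEq] at this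
        exact this.1.symm
      intro hxA
      apply hx'
      rw [hx]
      have h4 : (4 : L) ∈ A := by
        have : (4 : L) = ((4 : ℕ) : L) := by norm_num
        rw [this]; exact natCast_mem A 4
      exact sub_mem (A.mul_mem _ _ h4 hxA) hr

end transport

section frey

local notation "Qbar" => AlgebraicClosure ℚ

variable (P : FreyPackage)

lemma freyFLT_Qbar : (P.a : Qbar) ^ P.p + (P.b : Qbar) ^ P.p = (P.c : Qbar) ^ P.p := by
  exact_mod_cast P.hFLT

/-- **S13 / WP4.**  Inertia at an odd prime `q` (including `q = p`) moves a `p`-torsion point of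
the Frey curve by an element of the kernel of reduction. -/
theorem frey_inertia_sub_inKerRed {q : ℕ} (hq : q.Prime) (hq2 : q ≠ 2)
    (A : ValuationSubring Qbar) (hA : A.LiesOverPrime q) {σ : Qbar ≃ₐ[ℚ] Qbar}
    (hσ : σ ∈ A.inertiaSubgroupIn ℚ)
    (Q : (WeierstrassCurve.Affine.baseChange P.freyCurve Qbar).Point)
    (hQ : (P.p : ℤ) • Q = 0) : InKerRed A (σ • Q - Q) := by
  have hvq : A.valuation (q : Qbar) < 1 := (ValuationSubring.mem_nonunits_iff A).mp hA
  have hv2 : A.valuation (2 : Qbar) = 1 := by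
    have := Fermat.Agent.H4.val_natCast_eq_one_of_not_dvd A hq hvq (n := 2)
      (fun h => hq2 ((Nat.prime_dvd_prime_iff_eq hq Nat.prime_two).mp h))
    simpa using this
  have h2 : (2 : Qbar) ∉ A.nonunits := by
    rw [ValuationSubring.mem_nonunits_iff, hv2]; exact lt_irrefl _
  have hqZ : Prime (q : ℤ) := Nat.prime_iff_prime_int.mp hq
  have hint : ∀ n : ℤ, (n : Qbar) ∈ A := fun n => intCast_mem A n
  have hunit : ∀ n : ℤ, ¬ (q : ℤ) ∣ n → A.valuation ((n : Qbar) ^ P.p) = 1 := by
    intro n hn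
    rw [map_pow, Fermat.Agent.H4.val_intCast_eq_one_of_not_dvd A hq hvq hn, one_pow]
  have hsmall : ∀ n : ℤ, (q : ℤ) ∣ n → A.valuation ((n : Qbar) ^ P.p) < 1 := by
    intro n hn
    rw [map_pow]
    exact pow_lt_one₀ zero_le (Fermat.Agent.H4.val_intCast_lt_one_of_dvd A hvq hn) P.hp0
  have hcop : ∀ {m n : ℤ}, gcd m n = 1 → (q : ℤ) ∣ m → ¬ (q : ℤ) ∣ n := by
    intro m n hg hm hn
    have := dvd_gcd hm hn
    rw [hg] at this
    exact hqZ.not_dvd_one this
  have ha0 : (P.a : Qbar) ^ P.p ≠ 0 := pow_ne_zero _ (Int.cast_ne_zero.mpr P.ha0)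
  have hb0 : (P.b : Qbar) ^ P.p ≠ 0 := pow_ne_zero _ (Int.cast_ne_zero.mpr P.hb0)
  have hc0 : (P.c : Qbar) ^ P.p ≠ 0 := pow_ne_zero _ (Int.cast_ne_zero.mpr P.hc0)
  have hAmem : (P.a : Qbar) ^ P.p ∈ A := pow_mem (hint _) _
  have hBmem : (P.b : Qbar) ^ P.p ∈ A := pow_mem (hint _) _
  have hCmem : (P.c : Qbar) ^ P.p ∈ A := pow_mem (hint _) _
  have hF := freyFLT_Qbar P
  -- the coefficients of the two short models over `Qbar`
  have eAB₂ : algebraMap ℚ Qbar (freyShortAB P).a₂ = (P.b : Qbar) ^ P.p - (P.a : Qbar) ^ P.p := by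
    simp [freyShortAB]
  have eAB₄ : algebraMap ℚ Qbar (freyShortAB P).a₄ = -((P.a : Qbar) ^ P.p * (P.b : Qbar) ^ P.p) := by
    simp [freyShortAB]
  have eC₂ : algebraMap ℚ Qbar (freyShortC P).a₂ = (P.a : Qbar) ^ P.p + (P.c : Qbar) ^ P.p := by
    rw [freyShortC_a₂]; simp
  have eC₄ : algebraMap ℚ Qbar (freyShortC P).a₄ = (P.a : Qbar) ^ P.p * (P.c : Qbar) ^ P.p := by
    rw [freyShortC_a₄]; simp
  have nonunit_of_val : ∀ {z : Qbar}, A.valuation z = 1 → z ∉ A.nonunits := by
    intro z hz hmem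
    rw [ValuationSubring.mem_nonunits_iff, hz] at hmem
    exact lt_irrefl _ hmem
  -- the two transports
  have keyAB : (∀ R : ((freyShortAB P).baseChange Qbar).Point, (P.p : ℤ) • R = 0 →
      InKerRed A (σ • R - R)) → InKerRed A (σ • Q - Q) := by
    intro hR
    refine inKerRed_of_toShort A P.freyCurve 0 two_ne_zero (shortOf_freyCurve_zero P)
      (by rw [_root_.map_zero]; exact A.zero_mem) _ ?_
    have e : toShortEquivOfEq P.freyCurve 0 (two_ne_zero (α := Qbar)) (shortOf_freyCurve_zero P)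
        (σ • Q - Q) = σ • (freyToShortAB P Q) - freyToShortAB P Q := by
      rw [map_sub, toShortEquivOfEq_smul]; rfl
    rw [e]
    apply hR
    rw [← map_zsmul, hQ, _root_.map_zero]
  have keyC : (∀ R : ((freyShortC P).baseChange Qbar).Point, (P.p : ℤ) • R = 0 →
      InKerRed A (σ • R - R)) → InKerRed A (σ • Q - Q) := by
    intro hR
    refine inKerRed_of_toShort A P.freyCurve ((P.a : ℚ) ^ P.p) two_ne_zero
      (shortOf_freyCurve_A P) (by simpa using hAmem) _ ?_
    have e : toShortEquivOfEq P.freyCurve ((P.a : ℚ) ^ P.p) (two_ne_zero (α := Qbar))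
        (shortOf_freyCurve_A P) (σ • Q - Q) = σ • (freyToShortC P Q) - freyToShortC P Q := by
      rw [map_sub, toShortEquivOfEq_smul]; rfl
    rw [e]
    apply hR
    rw [← map_zsmul, hQ, _root_.map_zero]
  have hAB₂mem : algebraMap ℚ Qbar (freyShortAB P).a₂ ∈ A := by
    rw [eAB₂]; exact sub_mem hBmem hAmem
  have hAB₄mem : algebraMap ℚ Qbar (freyShortAB P).a₄ ∈ A := by
    rw [eAB₄]; exact neg_mem (A.mul_mem _ _ hAmem hBmem)
  have hC₂mem : algebraMap ℚ Qbar (freyShortC P).a₂ ∈ A := by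
    rw [eC₂]; exact add_mem hAmem hCmem
  have hC₄mem : algebraMap ℚ Qbar (freyShortC P).a₄ ∈ A := by
    rw [eC₄]; exact A.mul_mem _ _ hAmem hCmem
  have hAB₄ne : (freyShortAB P).a₄ ≠ 0 := by
    intro h0
    have := congrArg (algebraMap ℚ Qbar) h0
    rw [eAB₄, _root_.map_zero, neg_eq_zero] at this
    exact mul_ne_zero ha0 hb0 this
  have hC₄ne : (freyShortC P).a₄ ≠ 0 := by
    intro h0
    have := congrArg (algebraMap ℚ Qbar) h0
    rw [eC₄, _root_.map_zero] at this
    exact mul_ne_zero ha0 hc0 this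
  by_cases ha : (q : ℤ) ∣ P.a
  · -- multiplicative, `q ∣ a`
    have hb : ¬ (q : ℤ) ∣ P.b := hcop P.hgcdab ha
    apply keyAB
    intro R hR
    have hunit₂ : A.valuation (algebraMap ℚ Qbar (freyShortAB P).a₂) = 1 := by
      rw [eAB₂, ← hunit _ hb]
      exact Valuation.map_sub_eq_of_lt_left _ (by rw [hunit _ hb]; exact hsmall _ ha)
    have hsmall₄ : algebraMap ℚ Qbar (freyShortAB P).a₄ ∈ A.nonunits := by
      rw [ValuationSubring.mem_nonunits_iff, eAB₄, Valuation.map_neg, map_mul, hunit _ hb,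
        mul_one]
      exact hsmall _ ha
    have ht : A.valuation (algebraMap ℚ Qbar (freyShortAB P).a₄) =
        A.valuation (algebraMap ℚ Qbar (P.a : ℚ)) ^ P.p := by
      rw [eAB₄, Valuation.map_neg, map_mul, hunit _ hb, mul_one, map_pow]
      simp
    refine inertia_sub_inKerRed_short A (freyShortAB P) rfl rfl rfl h2 hAB₂mem hAB₄mem P.p
      (Or.inr ⟨nonunit_of_val hunit₂, hsmall₄, ?_⟩) hσ R hR
    intro x y h hx hP
    exact Fermat.Agent.H71.node_case_qbar A hq hA (freyShortAB P) rfl rfl rfl h2 hAB₂mem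
      (nonunit_of_val hunit₂) hsmall₄ hAB₄ne P.hp_odd (P.a : ℚ) ht x y h hx hP
  by_cases hb : (q : ℤ) ∣ P.b
  · -- multiplicative, `q ∣ b`
    apply keyAB
    intro R hR
    have hunit₂ : A.valuation (algebraMap ℚ Qbar (freyShortAB P).a₂) = 1 := by
      rw [eAB₂, ← hunit _ ha]
      exact Valuation.map_sub_eq_of_lt_right _ (by rw [hunit _ ha]; exact hsmall _ hb)
    have hsmall₄ : algebraMap ℚ Qbar (freyShortAB P).a₄ ∈ A.nonunits := by
      rw [ValuationSubring.mem_nonunits_iff, eAB₄, Valuation.map_neg, map_mul, hunit _ ha,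
        one_mul]
      exact hsmall _ hb
    have ht : A.valuation (algebraMap ℚ Qbar (freyShortAB P).a₄) =
        A.valuation (algebraMap ℚ Qbar (P.b : ℚ)) ^ P.p := by
      rw [eAB₄, Valuation.map_neg, map_mul, hunit _ ha, one_mul, map_pow]
      simp
    refine inertia_sub_inKerRed_short A (freyShortAB P) rfl rfl rfl h2 hAB₂mem hAB₄mem P.p
      (Or.inr ⟨nonunit_of_val hunit₂, hsmall₄, ?_⟩) hσ R hR
    intro x y h hx hP
    exact Fermat.Agent.H71.node_case_qbar A hq hA (freyShortAB P) rfl rfl rfl h2 hAB₂mem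
      (nonunit_of_val hunit₂) hsmall₄ hAB₄ne P.hp_odd (P.b : ℚ) ht x y h hx hP
  by_cases hc : (q : ℤ) ∣ P.c
  · -- multiplicative, `q ∣ c`
    apply keyC
    intro R hR
    have hunit₂ : A.valuation (algebraMap ℚ Qbar (freyShortC P).a₂) = 1 := by
      rw [eC₂, ← hunit _ ha]
      exact Valuation.map_add_eq_of_lt_left _ (by rw [hunit _ ha]; exact hsmall _ hc)
    have hsmall₄ : algebraMap ℚ Qbar (freyShortC P).a₄ ∈ A.nonunits := by
      rw [ValuationSubring.mem_nonunits_iff, eC₄, map_mul, hunit _ ha, one_mul]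
      exact hsmall _ hc
    have ht : A.valuation (algebraMap ℚ Qbar (freyShortC P).a₄) =
        A.valuation (algebraMap ℚ Qbar (P.c : ℚ)) ^ P.p := by
      rw [eC₄, map_mul, hunit _ ha, one_mul, map_pow]
      simp
    refine inertia_sub_inKerRed_short A (freyShortC P) rfl rfl rfl h2 hC₂mem hC₄mem P.p
      (Or.inr ⟨nonunit_of_val hunit₂, hsmall₄, ?_⟩) hσ R hR
    intro x y h hx hP
    exact Fermat.Agent.H71.node_case_qbar A hq hA (freyShortC P) rfl rfl rfl h2 hC₂mem
      (nonunit_of_val hunit₂) hsmall₄ hC₄ne P.hp_odd (P.c : ℚ) ht x y h hx hP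
  · -- good reduction
    apply keyAB
    intro R hR
    refine inertia_sub_inKerRed_short A (freyShortAB P) rfl rfl rfl h2 hAB₂mem hAB₄mem P.p
      (Or.inl ?_) hσ R hR
    have e : algebraMap ℚ Qbar ((freyShortAB P).a₄ ^ 2 *
        ((freyShortAB P).a₂ ^ 2 - 4 * (freyShortAB P).a₄)) =
        ((P.a : Qbar) ^ P.p * (P.b : Qbar) ^ P.p * (P.c : Qbar) ^ P.p) ^ 2 := by
      rw [map_mul, map_pow, map_sub, map_pow, map_mul, eAB₂, eAB₄, ← hF]
      simp only [map_ofNat]
      ring
    rw [e]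
    apply nonunit_of_val
    rw [map_pow, map_mul, map_mul, hunit _ ha, hunit _ hb, hunit _ hc]
    simp

end frey

end Fermat.Agent.H92
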