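import Fermat.Agent.H8.ShortUnramified
import Fermat.Agent.H26.KernelReduction

set_option autoImplicit false

/-!
# Inertia acts trivially modulo the kernel of reduction (short model, any residue characteristic
different from `2`)

This is the S05 assembly of `Fermat.Agent.H8.inertia_fixes_torsion_short` *without* the final
"no torsion in the kernel of reduction" step: for a short Weierstrass model
`y² = x³ + a x² + b x` over `S`, a valuation subring `A` of `K ⊇ S` in which `2` is a unit,
`σ` in the inertia group of `A` and a `p`-torsion point `P`, the difference `σ • P - P` lies in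
the kernel of reduction.  No hypothesis relates `p` to the residue characteristic.
-/

namespace Fermat.Agent.H92

open WeierstrassCurve WeierstrassCurve.Affine WeierstrassCurve.Affine.Point
open Fermat.Agent.H8

universe s v

variable {S : Type s} {K : Type v} [Field S] [Field K] [DecidableEq K] [Algebra S K]

/-- The statement "`D` is `0` or has non-integral `x`-coordinate". -/
def InKerRed (A : ValuationSubring K) {W : Affine K} (D : W.Point) : Prop :=
  D = 0 ∨ ∃ (x y : K) (h : W.Nonsingular x y), D = Point.some x y h ∧ x ∉ A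

theorem inKerRed_iff_mem_kerRed (A : ValuationSubring K) {W : Affine K}
    (hW : Fermat.Agent.H26.IsIntegralAt A.valuation W) (D : W.Point) :
    InKerRed A D ↔ D ∈ Fermat.Agent.H26.kerRed hW :=
  (Fermat.Agent.H26.mem_kerRed_subring_iff A hW).symm

/-- Points with non-integral `x`-coordinate: `σ • P - P` is in the kernel of reduction, for `σ`
in the decomposition group. -/
theorem inKerRed_smul_sub_of_not_mem (A : ValuationSubring K) (W' : Affine S)
    (hW : Fermat.Agent.H26.IsIntegralAt A.valuation (W'⁄K))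
    {σ : K ≃ₐ[S] K} (hσ : σ ∈ A.decompositionSubgroup S)
    {x y : K} (h : (W'⁄K).Nonsingular x y) (hx : x ∉ A) :
    InKerRed A (σ • (Point.some x y h : (W'⁄K).Point) - Point.some x y h) := by
  rw [inKerRed_iff_mem_kerRed A hW]
  refine (Fermat.Agent.H26.kerRed hW).sub_mem ?_ ?_
  · rw [algEquiv_smul_some, Fermat.Agent.H26.some_mem_kerRed,
      Fermat.Agent.H26.one_lt_valuation_iff]
    exact fun hmem => hx ((apply_mem_iff_of_mem_decomposition A hσ).1 hmem)
  · rw [Fermat.Agent.H26.some_mem_kerRed, Fermat.Agent.H26.one_lt_valuation_iff]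
    exact hx

/-- **Short model, `σ • P - P` lies in the kernel of reduction.**  Same hypotheses as
`Fermat.Agent.H8.inertia_fixes_torsion_short` but without `hF1`. -/
theorem inertia_sub_inKerRed_short (A : ValuationSubring K) (W' : Affine S)
    (h₁ : W'.a₁ = 0) (h₃ : W'.a₃ = 0) (h₆ : W'.a₆ = 0)
    (h2 : (2 : K) ∉ A.nonunits)
    (ha : algebraMap S K W'.a₂ ∈ A) (hb : algebraMap S K W'.a₄ ∈ A) (p : ℕ)
    (hcase : algebraMap S K (W'.a₄ ^ 2 * (W'.a₂ ^ 2 - 4 * W'.a₄)) ∉ A.nonunits ∨
      (algebraMap S K W'.a₂ ∉ A.nonunits ∧ algebraMap S K W'.a₄ ∈ A.nonunits ∧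
        ∀ (x y : K) (h : (W'⁄K).Nonsingular x y), x ∈ A.nonunits →
          (p : ℤ) • (Point.some x y h : (W'⁄K).Point) = 0 →
          ∃ t : S, A.valuation (algebraMap S K t) = A.valuation x ∧
            A.valuation (algebraMap S K W'.a₄) < A.valuation x))
    {σ : K ≃ₐ[S] K} (hσ : σ ∈ A.inertiaSubgroupIn S)
    (P : (W'⁄K).Point) (hP : (p : ℤ) • P = 0) : InKerRed A (σ • P - P) := by
  classical
  -- coefficients of the base-changed curve
  have e₁ : (W'⁄K).a₁ = 0 := by
    show algebraMap S K W'.a₁ = 0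
    rw [h₁, _root_.map_zero]
  have e₂ : (W'⁄K).a₂ = algebraMap S K W'.a₂ := rfl
  have e₃ : (W'⁄K).a₃ = 0 := by
    show algebraMap S K W'.a₃ = 0
    rw [h₃, _root_.map_zero]
  have e₄ : (W'⁄K).a₄ = algebraMap S K W'.a₄ := rfl
  have e₆ : (W'⁄K).a₆ = 0 := by
    show algebraMap S K W'.a₆ = 0
    rw [h₆, _root_.map_zero]
  set a : K := algebraMap S K W'.a₂ with hadef
  set b : K := algebraMap S K W'.a₄ with hbdef
  have ha₁ : (W'⁄K).a₁ ∈ A := by rw [e₁]; exact A.zero_mem
  have ha₂ : (W'⁄K).a₂ ∈ A := by rw [e₂]; exact ha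
  have ha₃ : (W'⁄K).a₃ ∈ A := by rw [e₃]; exact A.zero_mem
  have ha₄ : (W'⁄K).a₄ ∈ A := by rw [e₄]; exact hb
  have ha₆ : (W'⁄K).a₆ ∈ A := by rw [e₆]; exact A.zero_mem
  have hWint : Fermat.Agent.H26.IsIntegralAt A.valuation (W'⁄K) :=
    Fermat.Agent.H26.isIntegralAt_of_mem A ha₁ ha₂ ha₃ ha₄ ha₆
  have h2A : (2 : K) ∈ A := two_mem A
  have h3A : (3 : K) ∈ A := by simp
  have h2v : A.valuation (2 : K) = 1 := val_eq_one_of_mem_of_not_nonunit A h2A h2
  have hdec := mem_decomposition_of_mem_inertiaSubgroupIn A hσ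
  rcases P with _ | ⟨x, y, h⟩
  · left
    show σ • (0 : (W'⁄K).Point) - 0 = 0
    rw [algEquiv_smul_zero, sub_zero]
  -- the equation
  have heq : y ^ 2 = x ^ 3 + a * x ^ 2 + b * x := by
    have := (equation_iff (W := (W'⁄K)) x y).1 h.1
    rw [e₁, e₃, e₆, e₂, e₄] at this
    linear_combination this
  by_cases hxA : x ∈ A
  swap
  · exact inKerRed_smul_sub_of_not_mem A W' hWint hdec h hxA
  have hfA : x ^ 3 + a * x ^ 2 + b * x ∈ A :=
    A.add_mem _ _ (A.add_mem _ _ (pow_mem hxA 3) (A.mul_mem _ _ ha (pow_mem hxA 2)))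
      (A.mul_mem _ _ hb hxA)
  have hyA : y ∈ A := mem_of_sq_mem A (by rw [heq]; exact hfA)
  by_cases hns : (W'⁄K).a₁ * y - (3 * x ^ 2 + 2 * (W'⁄K).a₂ * x + (W'⁄K).a₄) ∉ A.nonunits ∨
      2 * y + (W'⁄K).a₁ * x + (W'⁄K).a₃ ∉ A.nonunits
  · exact inertia_smul_sub_of_nonsingular_reduction A ha₁ ha₂ ha₃ ha₄ hσ h hxA hyA hns
  -- singular reduction
  rw [not_or, not_not, not_not, e₁, e₂, e₃, e₄] at hns
  obtain ⟨hWX, hWY⟩ := hns
  have hf' : 3 * x ^ 2 + 2 * a * x + b ∈ A.nonunits := by
    have : 3 * x ^ 2 + 2 * a * x + b = -(0 * y - (3 * x ^ 2 + 2 * a * x + b)) := by ring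
    rw [this]; exact neg_mem hWX
  have hy𝔪 : y ∈ A.nonunits := by
    have h2y : 2 * y ∈ A.nonunits := by
      have : 2 * y = 2 * y + 0 * x + 0 := by ring
      rw [this]; exact hWY
    rw [← val_lt_one_iff] at h2y ⊢
    rwa [map_mul, h2v, one_mul] at h2y
  have hf : x ^ 3 + a * x ^ 2 + b * x ∈ A.nonunits := by
    rw [← heq, pow_two]
    exact mul_mem_nonunits_left A hyA hy𝔪
  rcases hcase with hgood | ⟨haunit, hb𝔪, hnode⟩
  · -- good reduction: contradiction with the discriminant being a unit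
    exfalso
    apply hgood
    have hid := short_disc_identity a b x
    have hmap : algebraMap S K (W'.a₄ ^ 2 * (W'.a₂ ^ 2 - 4 * W'.a₄)) =
        b ^ 2 * (a ^ 2 - 4 * b) := by
      simp only [map_mul, map_pow, map_sub, map_ofNat, hadef, hbdef]
    rw [hmap, ← hid]
    have hu : (-6 * a ^ 2 + 18 * b) * x + (-4 * a ^ 3 + 15 * a * b) ∈ A := by
      have h6 : (6 : K) ∈ A := by simp
      have h18 : (18 : K) ∈ A := by simp
      have h4 : (4 : K) ∈ A := by simp
      have h15 : (15 : K) ∈ A := by simp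
      refine A.add_mem _ _ (A.mul_mem _ _ (A.add_mem _ _ (A.mul_mem _ _ (neg_mem h6)
        (pow_mem ha 2)) (A.mul_mem _ _ h18 hb)) hxA) (A.add_mem _ _
        (A.mul_mem _ _ (neg_mem h4) (pow_mem ha 3)) (A.mul_mem _ _ (A.mul_mem _ _ h15 ha) hb))
    have hv : (2 * a ^ 2 - 6 * b) * x ^ 2 + a * (2 * a ^ 2 - 7 * b) * x + b * (a ^ 2 - 4 * b)
        ∈ A := by
      have h6 : (6 : K) ∈ A := by simp
      have h7 : (7 : K) ∈ A := by simp
      have h4 : (4 : K) ∈ A := by simp
      refine A.add_mem _ _ (A.add_mem _ _ (A.mul_mem _ _ (sub_mem (A.mul_mem _ _ h2A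
        (pow_mem ha 2)) (A.mul_mem _ _ h6 hb)) (pow_mem hxA 2)) (A.mul_mem _ _ (A.mul_mem _ _ ha
        (sub_mem (A.mul_mem _ _ h2A (pow_mem ha 2)) (A.mul_mem _ _ h7 hb))) hxA))
        (A.mul_mem _ _ hb (sub_mem (pow_mem ha 2) (A.mul_mem _ _ h4 hb)))
    exact add_mem (mul_mem_nonunits_left A hu hf) (mul_mem_nonunits_left A hv hf')
  · -- multiplicative reduction; first `b ∈ 𝔪` and `x ∈ 𝔪`
    have hav : A.valuation a = 1 := val_eq_one_of_mem_of_not_nonunit A ha haunit
    have hx𝔪 : x ∈ A.nonunits := by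
      by_contra hxu
      have hxv : A.valuation x = 1 := val_eq_one_of_mem_of_not_nonunit A hxA hxu
      have hq : x ^ 2 + a * x + b ∈ A.nonunits := by
        have hqA : x ^ 2 + a * x + b ∈ A :=
          A.add_mem _ _ (A.add_mem _ _ (pow_mem hxA 2) (A.mul_mem _ _ ha hxA)) hb
        have : x * (x ^ 2 + a * x + b) ∈ A.nonunits := by
          have e : x * (x ^ 2 + a * x + b) = x ^ 3 + a * x ^ 2 + b * x := by ring
          rw [e]; exact hf
        exact (mem_nonunits_or_of_mul_mem A hxA hqA this).resolve_left hxu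
      have h1 : x * (2 * x + a) ∈ A.nonunits := by
        have e : x * (2 * x + a) = (3 * x ^ 2 + 2 * a * x + b) - (x ^ 2 + a * x + b) := by ring
        rw [e]; exact sub_mem hf' hq
      have h2xa : 2 * x + a ∈ A.nonunits :=
        (mem_nonunits_or_of_mul_mem A hxA
          (A.add_mem _ _ (A.mul_mem _ _ h2A hxA) ha) h1).resolve_left hxu
      have h3 : x * (x + a) ∈ A.nonunits := by
        have e : x * (x + a) = (x ^ 2 + a * x + b) - b := by ring
        rw [e]; exact sub_mem hq hb𝔪
      have hxa : x + a ∈ A.nonunits :=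
        (mem_nonunits_or_of_mul_mem A hxA (A.add_mem _ _ hxA ha) h3).resolve_left hxu
      apply hxu
      have e : x = (2 * x + a) - (x + a) := by ring
      rw [e]; exact sub_mem h2xa hxa
    obtain ⟨t, ht, hbx⟩ := hnode x y h hx𝔪 hP
    have hx0 : x ≠ 0 := by
      rintro rfl
      rw [_root_.map_zero] at hbx
      exact not_lt_zero hbx
    have hxpos : 0 < A.valuation x := by rw [Valuation.pos_iff]; exact hx0
    have hxlt : A.valuation x < 1 := (val_lt_one_iff A).2 hx𝔪
    have ht0 : algebraMap S K t ≠ 0 := by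
      intro h0
      rw [h0, _root_.map_zero] at ht
      exact hxpos.ne ht
    -- `|y| = |x|`
    have hyx : A.valuation y = A.valuation x := by
      have hfac : y ^ 2 = x ^ 2 * (a + (x + b / x)) := by
        rw [heq]; field_simp; ring
      have hsmall : A.valuation (x + b / x) < 1 := by
        have hbx' : A.valuation (b / x) < 1 := by
          rw [map_div₀, div_lt_one₀ hxpos]; exact hbx
        exact lt_of_le_of_lt (Valuation.map_add _ _ _) (max_lt hxlt hbx')
      have hunit : A.valuation (a + (x + b / x)) = 1 := by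
        rw [← hav]
        exact Valuation.map_add_eq_of_lt_left _ (by rw [hav]; exact hsmall)
      have hsq : A.valuation y ^ 2 = A.valuation x ^ 2 := by
        rw [← map_pow, hfac, map_mul, hunit, mul_one, map_pow]
      exact (pow_left_inj₀ zero_le zero_le two_ne_zero).1 hsq
    refine inertia_smul_sub_of_scaled A ha₁ ha₂ hσ h hxA ht0 (by simp) ?_ ?_ ?_
    · rw [← val_le_one_iff, map_div₀, ht, div_self hxpos.ne']
    · rw [← val_le_one_iff, map_div₀, ht, hyx, div_self hxpos.ne']
    · rw [e₁, e₃, zero_mul, add_zero, add_zero, map_mul, h2v, one_mul, ht, hyx]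

end Fermat.Agent.H92
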