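import Fermat.Agent.H92.S13WP7Lift

/-!
# S13 / WP7: the global lemma (Minkowski)

A proper normal subgroup `H` of `G_ℚ` of finite level (containing the fixing subgroup of a finite
extension) misses, at some prime `ℓ`, an inertia element at every place over `ℓ`.
-/

set_option autoImplicit false
set_option linter.style.haveILetI false
set_option linter.unusedSectionVars false

noncomputable section

open scoped NumberField Pointwise

namespace Fermat.Agent.H92

open Fermat.Agent.H53

local notation "Qb" => AlgebraicClosure ℚ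

/-- Any two `ℚ`-algebra structures on a field agree: transport of a property. -/
theorem transport_ratAlgebra {K : Type*} [Field K] (P : Algebra ℚ K → Prop)
    (a₁ a₂ : Algebra ℚ K) (h : P a₁) : P a₂ := by
  obtain rfl : a₁ = a₂ := Subsingleton.elim _ _
  exact h

/-- **WP7** (global lemma). -/
theorem exists_prime_forall_exists_inertia_not_mem (H : Subgroup GQ7) [hn : H.Normal]
    (L : IntermediateField ℚ Qb) [FiniteDimensional ℚ L] (hL : L.fixingSubgroup ≤ H)
    (hH : H ≠ ⊤) :
    ∃ ℓ : ℕ, ℓ.Prime ∧ ∀ A : ValuationSubring Qb, A.LiesOverPrime ℓ →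
      ∃ σ ∈ A.inertiaSubgroupIn ℚ, σ ∉ H := by
  haveI := isGalois_algebraicClosure_rat
  have hopen : IsOpen (H : Set GQ7) :=
    Subgroup.isOpen_mono hL (IntermediateField.fixingSubgroup_isOpen L)
  have hclosed : IsClosed (H : Set GQ7) := Subgroup.isClosed_of_isOpen H hopen
  let Hc : ClosedSubgroup GQ7 := ⟨H, hclosed⟩
  have hFH : (IntermediateField.fixedField H).fixingSubgroup = H :=
    InfiniteGalois.fixingSubgroup_fixedField Hc
  generalize hF : IntermediateField.fixedField H = F at hFH
  have hfin0 : @FiniteDimensional ℚ F _ _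
      (@Algebra.toModule ℚ F _ _ (IntermediateField.algebra' F)) := by
    rw [← InfiniteGalois.isOpen_iff_finite]
    rw [hFH]
    exact hopen
  have hgal0 : @IsGalois ℚ _ F _ (IntermediateField.algebra' F) := by
    rw [← InfiniteGalois.normal_iff_isGalois]
    rw [hFH]
    exact hn
  haveI hfin : FiniteDimensional ℚ F :=
    transport_ratAlgebra (fun a => @FiniteDimensional ℚ F _ _ (@Algebra.toModule ℚ F _ _ a))
      _ _ hfin0
  haveI hgal : IsGalois ℚ F :=
    transport_ratAlgebra (fun a => @IsGalois ℚ _ F _ a) _ _ hgal0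
  haveI : NumberField F :=
    { to_charZero := inferInstance
      to_finiteDimensional :=
        transport_ratAlgebra
          (fun a => @FiniteDimensional ℚ F _ _ (@Algebra.toModule ℚ F _ _ a)) _ _ hfin0 }
  have hrank : 1 < Module.finrank ℚ F := by
    by_contra hcon
    have h1 : Module.finrank ℚ F = 1 := by
      have hpos : 0 < Module.finrank ℚ F := Module.finrank_pos
      omega
    have hbot : F = ⊥ := IntermediateField.finrank_eq_one_iff.mp h1
    apply hH
    rw [← hFH, hbot]
    exact IntermediateField.fixingSubgroup_bot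
  obtain ⟨p, hp, h⟩ := exists_prime_forall_exists_inertia_ne_one' F hrank
  refine ⟨p, hp, fun A hA => ?_⟩
  obtain ⟨τ, hτ, hτ1⟩ := h (centerO F A) (centerO_isPrime F A) (natCast_mem_centerO F A hA)
  obtain ⟨σ, hσ, hστ⟩ := exists_inertia_lift F hp A hA τ hτ
  refine ⟨σ, hσ, fun hσH => hτ1 ?_⟩
  rw [← hFH] at hσH
  ext y
  have h1 : σ (y : Qb) = (y : Qb) := by
    have := (IntermediateField.mem_fixingSubgroup_iff F σ).mp hσH
    exact this y y.2
  rw [hστ] at h1
  exact h1

/-- **WP7**, with all hypotheses explicit (the shape of the `hglobal` input of the S13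
assemblies). -/
theorem wp7_global :
    ∀ (H : Subgroup (Qb ≃ₐ[ℚ] Qb)), H.Normal → ∀ (L : IntermediateField ℚ Qb),
      FiniteDimensional ℚ L → L.fixingSubgroup ≤ H → H ≠ ⊤ →
      ∃ ℓ : ℕ, ℓ.Prime ∧ ∀ A : ValuationSubring Qb, A.LiesOverPrime ℓ →
        ∃ σ ∈ A.inertiaSubgroupIn ℚ, σ ∉ H :=
  fun H hn L hfin hL hH =>
    @exists_prime_forall_exists_inertia_not_mem H hn L hfin hL hH

/-- **WP7**, character form: a character of `G_ℚ` (any monoid-valued homomorphism) which is
trivial on the fixing subgroup of a finite extension and is not trivial is ramified at some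
prime `ℓ`, at every place over `ℓ`. -/
theorem exists_prime_forall_exists_inertia_char_ne_one {M : Type*} [Monoid M]
    (χ : (Qb ≃ₐ[ℚ] Qb) →* M) (L : IntermediateField ℚ Qb) [FiniteDimensional ℚ L]
    (hL : ∀ σ ∈ L.fixingSubgroup, χ σ = 1) (hne : ∃ σ, χ σ ≠ 1) :
    ∃ ℓ : ℕ, ℓ.Prime ∧ ∀ A : ValuationSubring Qb, A.LiesOverPrime ℓ →
      ∃ σ ∈ A.inertiaSubgroupIn ℚ, χ σ ≠ 1 := by
  let H : Subgroup (Qb ≃ₐ[ℚ] Qb) :=
    { carrier := {σ | χ σ = 1}
      one_mem' := map_one χ
      mul_mem' := fun {a b} ha hb => by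
        show χ (a * b) = 1
        rw [map_mul, show χ a = 1 from ha, show χ b = 1 from hb, one_mul]
      inv_mem' := fun {a} ha => by
        show χ a⁻¹ = 1
        have h1 : χ a * χ a⁻¹ = 1 := by rw [← map_mul, mul_inv_cancel, map_one]
        rw [show χ a = 1 from ha, one_mul] at h1
        exact h1 }
  have hmem : ∀ σ, σ ∈ H ↔ χ σ = 1 := fun σ => Iff.rfl
  haveI hn : H.Normal := ⟨fun n hn g => by
    rw [hmem] at hn ⊢
    rw [map_mul, map_mul, hn, mul_one, ← map_mul, mul_inv_cancel, map_one]⟩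
  have hH : H ≠ ⊤ := by
    intro h
    obtain ⟨σ, hσ⟩ := hne
    apply hσ
    rw [← hmem, h]
    exact Subgroup.mem_top σ
  obtain ⟨ℓ, hℓ, h⟩ := exists_prime_forall_exists_inertia_not_mem H L
    (fun σ hσ => (hmem σ).mpr (hL σ hσ)) hH
  refine ⟨ℓ, hℓ, fun A hA => ?_⟩
  obtain ⟨σ, hσ, hσH⟩ := h A hA
  exact ⟨σ, hσ, fun h1 => hσH ((hmem σ).mpr h1)⟩

end Fermat.Agent.H92
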