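import Fermat.Prelude.Def_GaloisRep_Residual
import Fermat.Agent.H92.S13WP7

/-!
# S13 / WP7: character form with the prelude's finite-level predicate
-/

set_option autoImplicit false
set_option linter.style.haveILetI false

noncomputable section

namespace Fermat.Agent.H92

local notation "Qb" => AlgebraicClosure ℚ

/-- **WP7**, character form with the prelude's finite-level predicate. -/
theorem exists_prime_forall_exists_inertia_char_ne_one' {M : Type} [Monoid M]
    (χ : (Qb ≃ₐ[ℚ] Qb) →* M) (hfin : GaloisFactorsThroughFiniteLevel χ)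
    (hne : ∃ σ, χ σ ≠ 1) :
    ∃ ℓ : ℕ, ℓ.Prime ∧ ∀ A : ValuationSubring Qb, A.LiesOverPrime ℓ →
      ∃ σ ∈ A.inertiaSubgroupIn ℚ, χ σ ≠ 1 := by
  obtain ⟨L, hLfin, hL⟩ := hfin
  haveI := hLfin
  refine exists_prime_forall_exists_inertia_char_ne_one χ L (fun σ hσ => hL σ ?_) hne
  intro x hx
  exact (IntermediateField.mem_fixingSubgroup_iff L σ).mp hσ x hx

end Fermat.Agent.H92
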