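import Mathlib.NumberTheory.NumberField.ExistsRamified
import Mathlib.NumberTheory.RamificationInertia.Galois

/-!
# S13 / WP7, finite level

In a Galois number field `K ≠ ℚ` there is a rational prime `p` such that every prime of `𝓞 K`
above `p` has a nontrivial inertia group (Minkowski's discriminant bound, through Mathlib's
`NumberField.exists_not_isUnramifiedAt_int_of_isGalois`).
-/

set_option autoImplicit false
set_option linter.style.haveILetI false

open scoped NumberField Pointwise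

namespace Fermat.Agent.H92

/-- Finite level: in a Galois number field `K ≠ ℚ` there is a rational prime `p` such that every
prime of `𝓞 K` above `p` has a nontrivial inertia group. -/
theorem exists_prime_forall_exists_inertia_ne_one (K : Type*) [Field K] [NumberField K]
    [IsGalois ℚ K] (H : 1 < Module.finrank ℚ K) :
    ∃ p : ℕ, p.Prime ∧ ∀ (P : Ideal (𝓞 K)), P.IsPrime → (p : 𝓞 K) ∈ P →
      ∃ τ ∈ P.inertia (K ≃ₐ[ℚ] K), τ ≠ 1 := by
  obtain ⟨p, hp, h⟩ := NumberField.exists_not_isUnramifiedAt_int_of_isGalois (K := K) (𝒪 := 𝓞 K) H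
  refine ⟨p, hp, fun P hP hpP => ?_⟩
  have hunr := h P hP hpP
  haveI := hP
  have hcard := Ideal.card_inertia_eq_ramificationIdxIn (G := K ≃ₐ[ℚ] K) (P.under ℤ) P
  rw [Ideal.ramificationIdxIn_eq_ramificationIdx (P.under ℤ) P (K ≃ₐ[ℚ] K)] at hcard
  have hne : Nat.card (P.inertia (K ≃ₐ[ℚ] K)) ≠ 1 := by
    rw [hcard]
    intro h1
    exact hunr (Ideal.ramificationIdx_eq_one_iff.mp h1)
  have hbot : (P.inertia (K ≃ₐ[ℚ] K)) ≠ ⊥ := by
    intro hb
    apply hne
    rw [hb]
    exact Subgroup.card_bot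
  obtain ⟨⟨τ, hτ⟩, hτ1⟩ := (Subgroup.ne_bot_iff_exists_ne_one).mp hbot
  exact ⟨τ, hτ, fun h1 => hτ1 (Subtype.ext h1)⟩

/-- The same statement for an arbitrary `ℚ`-algebra structure on `K` (for instance the one of an
intermediate field of `ℚ̄/ℚ`). -/
theorem exists_prime_forall_exists_inertia_ne_one' (K : Type*) [Field K] [NumberField K]
    [alg : Algebra ℚ K] [IsGalois ℚ K] (H : 1 < Module.finrank ℚ K) :
    ∃ p : ℕ, p.Prime ∧ ∀ (P : Ideal (𝓞 K)), P.IsPrime → (p : 𝓞 K) ∈ P →
      ∃ τ ∈ P.inertia (K ≃ₐ[ℚ] K), τ ≠ 1 := by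
  obtain rfl : alg = DivisionRing.toRatAlgebra := Subsingleton.elim _ _
  exact exists_prime_forall_exists_inertia_ne_one K H

end Fermat.Agent.H92
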