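import Fermat.Agent.H92.S13WP7Profinite
import Fermat.Agent.H92.S13WP7Finite

/-!
# S13 / WP7: lifting finite-level inertia to the absolute Galois group

`F ⊆ ℚ̄` a finite Galois extension of `ℚ`, `A` a valuation subring of `ℚ̄` over the prime `ℓ`.
An automorphism `τ` of `F` in the inertia group of the center of `A` on `𝓞 F` is the restriction
of an element of the inertia group of `A`.
-/

set_option autoImplicit false
set_option linter.style.haveILetI false
set_option linter.unusedSectionVars false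

noncomputable section

open scoped NumberField Pointwise

namespace Fermat.Agent.H92

open Fermat.Agent.H53

local notation "Qb" => AlgebraicClosure ℚ

variable (F : IntermediateField ℚ Qb)

/-- The trace on `F` of a valuation subring of `ℚ̄`. -/
def traceVal (A : ValuationSubring Qb) : ValuationSubring F :=
  A.comap (algebraMap F Qb)

theorem mem_traceVal_iff (A : ValuationSubring Qb) (y : F) :
    y ∈ traceVal F A ↔ (y : Qb) ∈ A := Iff.rfl

theorem mem_traceVal_nonunits_iff (A : ValuationSubring Qb) (y : F) :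
    y ∈ (traceVal F A).nonunits ↔ (y : Qb) ∈ A.nonunits := by
  rw [ValuationSubring.mem_nonunits_iff_or, ValuationSubring.mem_nonunits_iff_or]
  constructor
  · rintro (h | h)
    · left; rw [h]; rfl
    · right
      intro h'
      apply h
      rw [mem_traceVal_iff]
      rw [show ((y⁻¹ : F) : Qb) = ((y : F) : Qb)⁻¹ from rfl]
      exact h'
  · rintro (h | h)
    · left
      exact Subtype.ext h
    · right
      intro h'
      apply h
      rw [mem_traceVal_iff] at h'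
      exact h'

/-- The embedding of `𝓞 F` in `ℚ̄`. -/
def toQb : 𝓞 F →+* Qb := (algebraMap F Qb).comp (algebraMap (𝓞 F) F)

theorem toQb_apply (x : 𝓞 F) : toQb F x = (((x : 𝓞 F) : F) : Qb) := rfl

theorem toQb_isIntegral (x : 𝓞 F) : IsIntegral ℤ (toQb F x) :=
  map_isIntegral_int (toQb F) (NumberField.RingOfIntegers.isIntegral x)

theorem toQb_mem (A : ValuationSubring Qb) (x : 𝓞 F) : toQb F x ∈ A :=
  intRing_le A (toQb_isIntegral F x)

/-- The center on `𝓞 F` of a valuation subring of `ℚ̄`. -/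
def centerO (A : ValuationSubring Qb) : Ideal (𝓞 F) where
  carrier := {x | toQb F x ∈ A.nonunits}
  add_mem' := fun {a b} ha hb => by
    show toQb F (a + b) ∈ A.nonunits
    rw [map_add]
    exact add_mem ha hb
  zero_mem' := by
    show toQb F 0 ∈ A.nonunits
    rw [map_zero]
    exact A.nonunits.zero_mem
  smul_mem' := fun c {b} hb => by
    show toQb F (c • b) ∈ A.nonunits
    rw [smul_eq_mul, map_mul, mul_comm]
    exact nonunits_mul_mem A hb (toQb_mem F A c)

theorem mem_centerO_iff (A : ValuationSubring Qb) (x : 𝓞 F) :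
    x ∈ centerO F A ↔ toQb F x ∈ A.nonunits := Iff.rfl

theorem centerO_isPrime (A : ValuationSubring Qb) : (centerO F A).IsPrime where
  ne_top' := by
    intro h
    have h1 : (1 : 𝓞 F) ∈ centerO F A := h ▸ Submodule.mem_top
    rw [mem_centerO_iff, ValuationSubring.mem_nonunits_iff, map_one, map_one] at h1
    exact lt_irrefl _ h1
  mem_or_mem' := by
    intro a b hab
    rw [mem_centerO_iff, ValuationSubring.mem_nonunits_iff, map_mul, map_mul] at hab
    rw [mem_centerO_iff, mem_centerO_iff, ValuationSubring.mem_nonunits_iff,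
      ValuationSubring.mem_nonunits_iff]
    by_contra hcon
    rw [not_or, not_lt, not_lt] at hcon
    have ha : A.valuation (toQb F a) ≤ 1 := (A.valuation_le_one_iff _).mpr (toQb_mem F A a)
    have hb : A.valuation (toQb F b) ≤ 1 := (A.valuation_le_one_iff _).mpr (toQb_mem F A b)
    have ha1 : A.valuation (toQb F a) = 1 := le_antisymm ha hcon.1
    have hb1 : A.valuation (toQb F b) = 1 := le_antisymm hb hcon.2
    rw [ha1, hb1, one_mul] at hab
    exact lt_irrefl _ hab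

theorem natCast_mem_centerO (A : ValuationSubring Qb) {ℓ : ℕ} (hA : A.LiesOverPrime ℓ) :
    ((ℓ : ℕ) : 𝓞 F) ∈ centerO F A := by
  rw [mem_centerO_iff, map_natCast]
  exact hA

/-- The Galois action on `𝓞 F` is the restriction of the action on `F`. -/
theorem toQb_smul (τ : F ≃ₐ[ℚ] F) (x : 𝓞 F) :
    toQb F (τ • x) = ((τ ((x : 𝓞 F) : F) : F) : Qb) := rfl

/-- Valuation form of finite-level inertia: an element of the inertia group of the center of `A`
on `𝓞 F` preserves `A ∩ F` and acts trivially on its residue field. -/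
theorem inertia_val_form {ℓ : ℕ} (hℓ : ℓ.Prime) (A : ValuationSubring Qb)
    (hA : A.LiesOverPrime ℓ) (τ : F ≃ₐ[ℚ] F)
    (hτ : τ ∈ (centerO F A).inertia (F ≃ₐ[ℚ] F)) (y : F) (hy : (y : Qb) ∈ A) :
    ((τ y : F) : Qb) ∈ A ∧ ((τ y : F) : Qb) - (y : Qb) ∈ A.nonunits := by
  have hℓF : ((ℓ : ℕ) : F) ∈ (traceVal F A).nonunits := by
    rw [mem_traceVal_nonunits_iff]
    exact hA
  haveI := isGalois_algebraicClosure_rat
  haveI : Algebra.IsAlgebraic ℚ Qb := inferInstance
  haveI : Algebra.IsAlgebraic ℚ F := Algebra.IsAlgebraic.tower_bot (K := ℚ) (L := F) (A := Qb)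
  obtain ⟨s, b, hs, hb⟩ := exists_intRing_fraction (L := F) hℓ (traceVal F A) hℓF
    ((mem_traceVal_iff F A y).mpr hy)
  rw [mem_traceVal_nonunits_iff] at hs
  -- the elements of `𝓞 F`
  let s' : 𝓞 F := ⟨(s : F), s.2⟩
  let b' : 𝓞 F := ⟨(b : F), b.2⟩
  have hs' : toQb F s' = ((s : F) : Qb) := rfl
  have hb' : toQb F b' = ((b : F) : Qb) := rfl
  have hτs : ((τ (s : F) : F) : Qb) - ((s : F) : Qb) ∈ A.nonunits := by
    have h1 : τ • s' - s' ∈ centerO F A := hτ s'
    rw [mem_centerO_iff, map_sub, toQb_smul] at h1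
    exact h1
  have hτb : ((τ (b : F) : F) : Qb) - ((b : F) : Qb) ∈ A.nonunits := by
    have h1 : τ • b' - b' ∈ centerO F A := hτ b'
    rw [mem_centerO_iff, map_sub, toQb_smul] at h1
    exact h1
  have hτs_unit : ((τ (s : F) : F) : Qb) ∉ A.nonunits := by
    have h := not_mem_nonunits_add A hs hτs
    rwa [add_sub_cancel] at h
  obtain ⟨hτs0, hτsinv⟩ := inv_mem_of_not_mem_nonunits A hτs_unit
  have hτbA : ((τ (b : F) : F) : Qb) ∈ A := by
    have := toQb_mem F A (τ • b')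
    rwa [toQb_smul] at this
  have hbτ : ((τ (b : F) : F) : Qb) = ((τ (s : F) : F) : Qb) * ((τ y : F) : Qb) := by
    rw [hb, map_mul]
    rfl
  have hbQ : ((b : F) : Qb) = ((s : F) : Qb) * (y : Qb) := by
    rw [hb]
    rfl
  constructor
  · have : ((τ y : F) : Qb) = ((τ (s : F) : F) : Qb)⁻¹ * ((τ (b : F) : F) : Qb) := by
      rw [hbτ]
      field_simp
    rw [this]
    exact mul_mem hτsinv hτbA
  · apply mem_nonunits_of_mul_mem_nonunits A hτs_unit
    have : ((τ (s : F) : F) : Qb) * (((τ y : F) : Qb) - (y : Qb)) =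
        (((τ (b : F) : F) : Qb) - ((b : F) : Qb)) -
          (((τ (s : F) : F) : Qb) - ((s : F) : Qb)) * (y : Qb) := by
      rw [hbτ, hbQ]; ring
    rw [this]
    exact sub_mem hτb (nonunits_mul_mem A hτs hy)

/-- **Lifting of inertia**: an element of the inertia group of the center of `A` on `𝓞 F` is the
restriction to `F` of an element of the inertia group of `A`. -/
theorem exists_inertia_lift {ℓ : ℕ} (hℓ : ℓ.Prime) (A : ValuationSubring Qb)
    (hA : A.LiesOverPrime ℓ) (τ : F ≃ₐ[ℚ] F)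
    (hτ : τ ∈ (centerO F A).inertia (F ≃ₐ[ℚ] F)) :
    ∃ σ ∈ A.inertiaSubgroupIn ℚ, ∀ y : F, σ (y : Qb) = ((τ y : F) : Qb) := by
  haveI := isGalois_algebraicClosure_rat
  have hτinv : τ⁻¹ ∈ (centerO F A).inertia (F ≃ₐ[ℚ] F) := inv_mem hτ
  let σ₀ : GQ7 := τ.liftNormal Qb
  have hσ₀ : ∀ y : F, σ₀ (y : Qb) = ((τ y : F) : Qb) :=
    fun y => AlgEquiv.liftNormal_commutes τ Qb y
  let A' : ValuationSubring Qb := A.comap (σ₀ : Qb →+* Qb)
  have hA'mem : ∀ x, x ∈ A' ↔ σ₀ x ∈ A := fun x => Iff.rfl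
  have hAA' : ∀ y ∈ F, y ∈ A' ↔ y ∈ A := by
    intro y hy
    rw [hA'mem]
    have h0 := hσ₀ ⟨y, hy⟩
    have h0' : σ₀ y = ((τ ⟨y, hy⟩ : F) : Qb) := h0
    rw [h0']
    constructor
    · intro h
      have h1 := (inertia_val_form F hℓ A hA τ⁻¹ hτinv (τ ⟨y, hy⟩) h).1
      have h2 : τ⁻¹ (τ ⟨y, hy⟩) = ⟨y, hy⟩ := by
        rw [← AlgEquiv.mul_apply, inv_mul_cancel, AlgEquiv.one_apply]
      rw [h2] at h1
      exact h1
    · intro h
      exact (inertia_val_form F hℓ A hA τ hτ ⟨y, hy⟩ h).1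
  obtain ⟨ρ, hρF, hρ⟩ := wp7_transitiveStatement F A A' ℓ hℓ hA hAA'
  have hρinvF : ∀ y ∈ F, ρ⁻¹ y = y := by
    intro y hy
    have h1 : ρ⁻¹ (ρ y) = y := by
      rw [← AlgEquiv.mul_apply, inv_mul_cancel, AlgEquiv.one_apply]
    rw [hρF y hy] at h1
    exact h1
  let σ₁ : GQ7 := σ₀ * ρ⁻¹
  have hσ₁D : σ₁ ∈ A.decompositionSubgroup ℚ := by
    refine wp7_mem_decompositionSubgroup_of A σ₁ (fun x hx => ?_) (fun x hx => ?_)
    · show σ₀ (ρ⁻¹ x) ∈ A
      rw [← hA'mem, hρ]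
      have h1 : ρ (ρ⁻¹ x) = x := by
        rw [← AlgEquiv.mul_apply, mul_inv_cancel, AlgEquiv.one_apply]
      rw [h1]
      exact hx
    · have h1 : σ₁⁻¹ = ρ * σ₀⁻¹ := by
        show (σ₀ * ρ⁻¹)⁻¹ = ρ * σ₀⁻¹
        rw [mul_inv_rev, inv_inv]
      rw [h1]
      show ρ (σ₀⁻¹ x) ∈ A
      rw [← hρ, hA'mem]
      have h2 : σ₀ (σ₀⁻¹ x) = x := by
        rw [← AlgEquiv.mul_apply, mul_inv_cancel, AlgEquiv.one_apply]
      rw [h2]
      exact hx
  have hσ₁F : ∀ y : F, σ₁ (y : Qb) = ((τ y : F) : Qb) := by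
    intro y
    show σ₀ (ρ⁻¹ (y : Qb)) = _
    rw [hρinvF _ y.2, hσ₀]
  have hres : ∀ y ∈ F, y ∈ A → σ₁ y - y ∈ A.nonunits := by
    intro y hy hyA
    have h1 := (inertia_val_form F hℓ A hA τ hτ ⟨y, hy⟩ hyA).2
    have h2 := hσ₁F ⟨y, hy⟩
    have h2' : σ₁ y = ((τ ⟨y, hy⟩ : F) : Qb) := h2
    rw [h2']
    exact h1
  obtain ⟨ρ', hρ'F, hρ'D, hI⟩ := wp7_inertiaCorrectionStatement F A ℓ hℓ hA σ₁ hσ₁D hres
  refine ⟨ρ'⁻¹ * σ₁, hI, fun y => ?_⟩
  show ρ'⁻¹ (σ₁ (y : Qb)) = _
  rw [hσ₁F]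
  have h1 : ρ'⁻¹ (ρ' ((τ y : F) : Qb)) = ((τ y : F) : Qb) := by
    rw [← AlgEquiv.mul_apply, inv_mul_cancel, AlgEquiv.one_apply]
  rw [hρ'F _ (τ y).2] at h1
  exact h1

end Fermat.Agent.H92
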