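import Mathlib
import Fermat.Agent.H92.Descent

set_option autoImplicit false

namespace Fermat.Agent.H92

/-- Bound on the numerator of a rational square root of a quotient of positive integers. -/
theorem natAbs_num_sq_le (q : ℚ) (N M : ℤ) (hN : 0 < N) (hM : 0 < M)
    (h : q ^ 2 = (N : ℚ) / (M : ℚ)) : (q.num.natAbs : ℤ) ^ 2 ≤ N := by
  have h1 : (q ^ 2).num = q.num ^ 2 := Rat.num_pow q 2
  have h2 : (q ^ 2).num ∣ N := by
    rw [h, ← Rat.divInt_eq_div]
    exact Rat.num_dvd N hM.ne'
  rw [h1] at h2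
  rw [Int.natAbs_sq]
  exact Int.le_of_dvd hN h2

/-- The system `u² = v² + 9 e²`, `v² = w² + 16 e²` has no solution in positive integers. -/
theorem no_nat_solution : ∀ u v w e : ℕ, 0 < e → 0 < w →
    u ^ 2 = v ^ 2 + 9 * e ^ 2 → v ^ 2 = w ^ 2 + 16 * e ^ 2 → False := by
  intro u
  induction u using Nat.strong_induction_on with
  | _ u ih =>
    intro v w e he hw h1 h2
    by_cases hu : u < 81
    · exact small_check u v w e hu he hw h1 h2
    push Not at hu
    have hwv : w < v := by nlinarith
    have hvu : v < u := by nlinarith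
    have h5e : 5 * e < u := by nlinarith
    have heQ : (0 : ℚ) < e := by exact_mod_cast he
    have hwQ : (0 : ℚ) < w := by exact_mod_cast hw
    have hvQ : (0 : ℚ) < v := by exact_mod_cast (lt_trans hw hwv)
    have huQ : (0 : ℚ) < u := by exact_mod_cast (lt_trans (lt_trans hw hwv) hvu)
    have h1Q : (u : ℚ) ^ 2 = (v : ℚ) ^ 2 + 9 * (e : ℚ) ^ 2 := by exact_mod_cast h1
    have h2Q : (v : ℚ) ^ 2 = (w : ℚ) ^ 2 + 16 * (e : ℚ) ^ 2 := by exact_mod_cast h2
    have e1 : ((u : ℚ) / e) ^ 2 - ((v : ℚ) / e) ^ 2 = 9 := by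
      field_simp
      linear_combination h1Q
    have e2 : ((v : ℚ) / e) ^ 2 - ((w : ℚ) / e) ^ 2 = 16 := by
      field_simp
      linear_combination h2Q
    obtain ⟨a', b', c', ha', hb', hc', e1', e2', hval⟩ :=
      half_solution ((u : ℚ) / e) ((v : ℚ) / e) ((w : ℚ) / e) (by positivity) (by positivity)
        (by positivity) e1 e2
    obtain ⟨v', w', hw', h1', h2'⟩ := int_solution_of_rat a' b' c' hc' e1' e2'
    have hlt : a'.num.natAbs < u := by
      have hbound : (a'.num.natAbs : ℤ) ^ 2 < (u : ℤ) ^ 2 := by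
        rcases hval with hval | hval
        · have hM : (0 : ℤ) < (u : ℤ) - v := by
            have : (v : ℤ) < u := by exact_mod_cast hvu
            linarith
          have hN : (0 : ℤ) < 9 * ((u : ℤ) + w) := by positivity
          have hq : a' ^ 2 = ((9 * ((u : ℤ) + w) : ℤ) : ℚ) / (((u : ℤ) - v : ℤ) : ℚ) := by
            rw [hval]
            push_cast
            have hne : (u : ℚ) - v ≠ 0 := by
              have : (v : ℚ) < u := by exact_mod_cast hvu
              linarith
            have hne' : (u : ℚ) / e - v / e ≠ 0 := by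
              rw [← sub_div]; exact div_ne_zero hne heQ.ne'
            field_simp
          have := natAbs_num_sq_le a' _ _ hN hM hq
          have hwu : (w : ℤ) < u := by exact_mod_cast (lt_trans hwv hvu)
          have hu81 : (81 : ℤ) ≤ u := by exact_mod_cast hu
          nlinarith
        · have h54 : (0 : ℤ) < 5 * (v : ℤ) - 4 * u := by
            have h1Z : (u : ℤ) ^ 2 = (v : ℤ) ^ 2 + 9 * (e : ℤ) ^ 2 := by exact_mod_cast h1
            have h2Z : (v : ℤ) ^ 2 = (w : ℤ) ^ 2 + 16 * (e : ℤ) ^ 2 := by exact_mod_cast h2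
            have hwZ : (0 : ℤ) < w := by exact_mod_cast hw
            have huZ : (0 : ℤ) < u := by exact_mod_cast (lt_trans (lt_trans hw hwv) hvu)
            have hvZ : (0 : ℤ) < v := by exact_mod_cast (lt_trans hw hwv)
            have : (5 * (v : ℤ) - 4 * u) * (5 * v + 4 * u) = 9 * (w : ℤ) ^ 2 := by
              linear_combination (-16) * h1Z + 9 * h2Z
            by_contra hneg
            push Not at hneg
            have hpos : 0 < 9 * (w : ℤ) ^ 2 := by positivity
            nlinarith
          have hN : (0 : ℤ) < 45 * ((v : ℤ) + 4 * e) := by positivity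
          have hq : a' ^ 2 = ((45 * ((v : ℤ) + 4 * e) : ℤ) : ℚ) /
              ((5 * (v : ℤ) - 4 * u : ℤ) : ℚ) := by
            rw [hval]
            push_cast
            have hne : 5 * (v : ℚ) - 4 * u ≠ 0 := by
              have : (0 : ℚ) < 5 * (v : ℚ) - 4 * u := by exact_mod_cast h54
              exact this.ne'
            have hne' : 5 * ((v : ℚ) / e) - 4 * ((u : ℚ) / e) ≠ 0 := by
              have : 5 * ((v : ℚ) / e) - 4 * ((u : ℚ) / e) = (5 * (v : ℚ) - 4 * u) / e := by
                field_simp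
              rw [this]; exact div_ne_zero hne heQ.ne'
            field_simp
          have := natAbs_num_sq_le a' _ _ hN h54 hq
          have hvuZ : (v : ℤ) < u := by exact_mod_cast hvu
          have h5eZ : 5 * (e : ℤ) < u := by exact_mod_cast h5e
          have hu81 : (81 : ℤ) ≤ u := by exact_mod_cast hu
          nlinarith
      have h0 : (0 : ℤ) ≤ (u : ℤ) := by positivity
      have h0' : (0 : ℤ) ≤ (a'.num.natAbs : ℤ) := by positivity
      have : (a'.num.natAbs : ℤ) < u := by
        by_contra hcon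
        push Not at hcon
        nlinarith
      exact_mod_cast this
    exact ih _ hlt v' w' a'.den a'.den_pos hw' h1' h2'

/-- If `α₁² - α₂² = 9` and `α₂² - α₃² = 16` over `ℚ`, then `α₃ = 0`. -/
theorem no_rat_solution (a b c : ℚ) (e1 : a ^ 2 - b ^ 2 = 9) (e2 : b ^ 2 - c ^ 2 = 16) :
    c = 0 := by
  by_contra hc
  have hc' : 0 < |c| := abs_pos.mpr hc
  have e1' : |a| ^ 2 - |b| ^ 2 = 9 := by rw [sq_abs, sq_abs]; exact e1
  have e2' : |b| ^ 2 - |c| ^ 2 = 16 := by rw [sq_abs, sq_abs]; exact e2
  obtain ⟨v, w, hw, h1, h2⟩ := int_solution_of_rat |a| |b| |c| hc' e1' e2'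
  exact no_nat_solution _ v w _ (Rat.den_pos _) hw h1 h2

/-- **Rational points of `V² = Z (Z - 9) (Z - 25)`** (the modular curve `X₀(15)`, Cremona `15a`):
the affine rational points are `(0,0), (9,0), (25,0), (5,±20), (45,±180)`. -/
theorem rational_points_15a1 (Z V : ℚ) (h : V ^ 2 = Z * (Z - 9) * (Z - 25)) :
    Z = 0 ∨ Z = 9 ∨ Z = 25 ∨ Z = 5 ∨ Z = 45 := by
  by_cases hV : V = 0
  · rw [hV] at h
    have h0 : Z * (Z - 9) * (Z - 25) = 0 := by rw [← h]; ring
    rcases mul_eq_zero.mp h0 with h0 | h0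
    · rcases mul_eq_zero.mp h0 with h0 | h0
      · exact Or.inl h0
      · exact Or.inr (Or.inl (by linarith))
    · exact Or.inr (Or.inr (Or.inl (by linarith)))
  · have h2V : (2 * V) ≠ 0 := mul_ne_zero two_ne_zero hV
    have e1 : ((Z ^ 2 - 225) / (2 * V)) ^ 2 - ((Z ^ 2 - 18 * Z + 225) / (2 * V)) ^ 2 = 9 := by
      field_simp
      linear_combination (-36 : ℚ) * h
    have e2 : ((Z ^ 2 - 18 * Z + 225) / (2 * V)) ^ 2 -
        ((Z ^ 2 - 50 * Z + 225) / (2 * V)) ^ 2 = 16 := by
      field_simp
      linear_combination (-64 : ℚ) * h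
    have h3 := no_rat_solution _ _ _ e1 e2
    rw [div_eq_zero_iff] at h3
    rcases h3 with h3 | h3
    · have : (Z - 5) * (Z - 45) = 0 := by linear_combination h3
      rcases mul_eq_zero.mp this with h5 | h45
      · exact Or.inr (Or.inr (Or.inr (Or.inl (by linarith))))
      · exact Or.inr (Or.inr (Or.inr (Or.inr (by linarith))))
    · exact absurd h3 h2V

end Fermat.Agent.H92
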